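import Fermat.Agent.CurveRed.Chart
import Fermat.Agent.CurveRed.Quot
import Mathlib.LinearAlgebra.Matrix.Block
import Mathlib.FieldTheory.RatFunc.Basic

/-!
# Several constant reductions of one function field

A `MultiRed` consists of constant reductions to several curves with a common residue map such
that every function on one component has lifts that are arbitrarily small on the others.
-/

set_option autoImplicit false
set_option linter.style.haveILetI false
set_option linter.unusedSectionVars false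

noncomputable section

namespace FA.ModField

open AlgebraicCurve FA.Curve FA.CurveRed FA.CurveRed.ConstRed Polynomial IntermediateField

variable (K F k : Type*) [Field K] [Field F] [Algebra K F] [Field k] {ι : Type*}
  (Fk : ι → Type*) [∀ i, Field (Fk i)] [∀ i, Algebra k (Fk i)] (A : ValuationSubring K)

/-- Independent constant reductions with a common residue map. -/
structure MultiRed where
  /-- the reductions -/
  C : ∀ i, ConstRed K F k (Fk i) A
  /-- the residue map -/
  π : A →+* k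
  pi_eq : ∀ i, (C i).π = π
  scaled : ∀ i, (C i).Scaled
  sep : ∀ (i : ι) (r : Fk i) (d : K), ∃ f, (C i).Red f r ∧
    ∀ j, j ≠ i → (C j).Red f 0 ∧ (C j).Red (algebraMap K F d * f) 0

namespace MultiRed

variable {K F k Fk A} (J : MultiRed K F k Fk A)

/-- `f` is integral on all components with reductions `r`. -/
def Red (f : F) (r : ∀ i, Fk i) : Prop := ∀ i, (J.C i).Red f (r i)

theorem π_surjective [Nonempty ι] : Function.Surjective J.π := by
  rw [← J.pi_eq (Classical.arbitrary ι)]
  exact (J.C _).π_surjective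

theorem π_eq_zero [Nonempty ι] (a : A) : J.π a = 0 ↔ A.valuation a < 1 := by
  rw [← J.pi_eq (Classical.arbitrary ι)]
  exact (J.C _).π_eq_zero a

theorem red_const_at (i : ι) (a : A) :
    (J.C i).Red (algebraMap K F a) (algebraMap k (Fk i) (J.π a)) := by
  rw [← J.pi_eq i]
  exact ConstRed.red_const a

theorem red_const (a : A) :
    J.Red (algebraMap K F a) (fun i => algebraMap k (Fk i) (J.π a)) :=
  fun i => J.red_const_at i a

theorem red_zero : J.Red 0 0 := fun _ => ConstRed.red_zero

theorem red_one : J.Red 1 1 := fun _ => ConstRed.red_one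

variable {J}

theorem Red.unique {f : F} {r r' : ∀ i, Fk i} (h : J.Red f r) (h' : J.Red f r') : r = r' :=
  funext fun i => (h i).unique (h' i)

theorem Red.add {f g : F} {r s : ∀ i, Fk i} (h : J.Red f r) (h' : J.Red g s) :
    J.Red (f + g) (r + s) := fun i => (h i).add (h' i)

theorem Red.sub {f g : F} {r s : ∀ i, Fk i} (h : J.Red f r) (h' : J.Red g s) :
    J.Red (f - g) (r - s) := fun i => (h i).sub (h' i)

theorem Red.mul {f g : F} {r s : ∀ i, Fk i} (h : J.Red f r) (h' : J.Red g s) :
    J.Red (f * g) (r * s) := fun i => (h i).mul (h' i)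

theorem Red.pow {f : F} {r : ∀ i, Fk i} (h : J.Red f r) (n : ℕ) : J.Red (f ^ n) (r ^ n) :=
  fun i => (h i).pow n

theorem red_prod {α : Type*} {s : Finset α} {f : α → F} {r : α → ∀ i, Fk i}
    (h : ∀ a ∈ s, J.Red (f a) (r a)) : J.Red (∏ a ∈ s, f a) (∏ a ∈ s, r a) := fun i => by
  rw [Finset.prod_apply]
  exact ConstRed.red_prod fun a ha => h a ha i

theorem red_sum {α : Type*} {s : Finset α} {f : α → F} {r : α → ∀ i, Fk i}
    (h : ∀ a ∈ s, J.Red (f a) (r a)) : J.Red (∑ a ∈ s, f a) (∑ a ∈ s, r a) := fun i => by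
  rw [Finset.sum_apply]
  exact ConstRed.red_sum fun a ha => h a ha i

theorem Red.smul {f : F} {r : ∀ i, Fk i} (h : J.Red f r) (a : A) :
    J.Red (algebraMap K F a * f) (J.π a • r) := fun i => by
  rw [Pi.smul_apply, Algebra.smul_def]
  exact (J.red_const_at i a).mul (h i)

theorem Red.ne_zero {f : F} {r : ∀ i, Fk i} (h : J.Red f r) {i : ι} (hr : r i ≠ 0) : f ≠ 0 :=
  (h i).ne_zero hr

theorem red_aeval {x : F} {xb : ∀ i, Fk i} (hx : J.Red x xb) (P : A[X]) (i : ι) :
    (J.C i).Red (aeval x (P.map A.subtype)) (aeval (xb i) (P.map J.π)) := by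
  rw [← J.pi_eq i]
  exact ConstRed.red_aeval (hx i) P

variable (J)

/-- A lift of a function on one component, small on all others. -/
theorem exists_small [Fintype ι] [DecidableEq ι] (i : ι) (r : Fk i) (d : ι → K) :
    ∃ f, J.Red f (Pi.single i r) ∧
      ∀ j, j ≠ i → (J.C j).Red (algebraMap K F (d j) * f) 0 := by
  classical
  by_cases hd : ∀ j, d j = 0
  · obtain ⟨f, h1, h2⟩ := J.sep i r 0
    refine ⟨f, fun j => ?_, fun j _ => by rw [hd j, map_zero, zero_mul]; exact ConstRed.red_zero⟩
    rcases eq_or_ne j i with rfl | hj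
    · rw [Pi.single_eq_same]; exact h1
    · rw [Pi.single_eq_of_ne hj]; exact (h2 j hj).1
  push Not at hd
  obtain ⟨l, hl0, hl⟩ := exists_max_coeff A d hd
  obtain ⟨f, h1, h2⟩ := J.sep i r (d l)
  refine ⟨f, fun j => ?_, fun j hj => ?_⟩
  · rcases eq_or_ne j i with rfl | hj
    · rw [Pi.single_eq_same]; exact h1
    · rw [Pi.single_eq_of_ne hj]; exact (h2 j hj).1
  · have h3 := (J.red_const_at j ⟨_, hl j⟩).mul (h2 j hj).2
    rw [mul_zero, ← mul_assoc, ← map_mul, div_mul_cancel₀ _ hl0] at h3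
    exact h3

/-- A chart: the degree over `K(x)` does not exceed the sum of the degrees downstairs. -/
structure MChart [Fintype ι] (x : F) (xb : ∀ i, Fk i) : Prop where
  red_x : J.Red x xb
  trans : ∀ i, Transcendental k (xb i)
  degree_le : Module.finrank K⟮x⟯ F ≤ ∑ i, Module.finrank k⟮xb i⟯ (Fk i)

variable {J} [Fintype ι] {x : F} {xb : ∀ i, Fk i}

theorem MChart.xb_ne_zero (h : J.MChart x xb) (i : ι) : xb i ≠ 0 :=
  fun h0 => h.trans i (by rw [h0]; exact isAlgebraic_zero)

theorem MChart.inv (h : J.MChart x xb) : J.MChart x⁻¹ (fun i => (xb i)⁻¹) where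
  red_x i := (h.red_x i).inv (h.xb_ne_zero i)
  trans i h' := h.trans i (by simpa using h'.inv)
  degree_le := by
    rw [adjoin_inv_eq]
    refine h.degree_le.trans (le_of_eq (Finset.sum_congr rfl fun i _ => ?_))
    rw [adjoin_inv_eq]

theorem MChart.transX [IsAlgClosed K] [Nonempty ι] (h : J.MChart x xb) : Transcendental K x :=
  transcendental_of_red (h.red_x (Classical.arbitrary ι)) (h.trans _)

/-! ### The base field -/

namespace MChart

variable (h : J.MChart x xb)

theorem coe_aeval_gen {R E : Type*} [Field R] [Field E] [Algebra R E] (z : E) (p : R[X]) :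
    ((aeval (AdjoinSimple.gen R z) p : R⟮z⟯) : E) = aeval z p := by
  have h1 := (aeval_algHom_apply R⟮z⟯.val (AdjoinSimple.gen R z) p).symm
  simpa using h1

theorem aeval_gen_injective {R E : Type*} [Field R] [Field E] [Algebra R E] {z : E}
    (hz : Transcendental R z) :
    Function.Injective (aeval (AdjoinSimple.gen R z) : R[X] →ₐ[R] R⟮z⟯).toRingHom := by
  rw [injective_iff_map_eq_zero]
  intro p hp
  refine transcendental_iff.1 hz p ?_
  rw [← coe_aeval_gen, show aeval (AdjoinSimple.gen R z) p = 0 from hp]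
  rfl

/-- Evaluation of polynomials in the base. -/
def baseUp (_J : MultiRed K F k Fk A) (x : F) : A[X] →+* K⟮x⟯ :=
  (aeval (AdjoinSimple.gen K x)).toRingHom.comp (mapRingHom A.subtype)

/-- Reduction of polynomials to rational functions. -/
def baseDown (J : MultiRed K F k Fk A) : A[X] →+* RatFunc k :=
  (algebraMap k[X] (RatFunc k)).comp (mapRingHom J.π)

theorem coe_baseUp (x : F) (P : A[X]) :
    ((baseUp J x P : K⟮x⟯) : F) = aeval x (P.map A.subtype) := by
  exact coe_aeval_gen x (P.map A.subtype)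

theorem baseDown_ne_zero {P : A[X]} (hP : P.map J.π ≠ 0) : baseDown J P ≠ 0 := fun h0 =>
  hP (RatFunc.algebraMap_injective k (by rw [map_zero]; exact h0))

theorem baseUp_injective [IsAlgClosed K] [Nonempty ι] :
    J.MChart x xb → Function.Injective (baseUp J x) := fun h P Q hPQ => by
  have h1 := congrArg (fun z : K⟮x⟯ => (z : F)) hPQ
  simp only [coe_baseUp] at h1
  exact Polynomial.map_injective _ Subtype.val_injective
    (sub_eq_zero.1 (transcendental_iff.1 h.transX _ (by rw [map_sub, h1, sub_self])))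

variable [IsAlgClosed K] [Nonempty ι]

/-- The Gauss reduction on `K(x)`. -/
def base (h : J.MChart x xb) : ConstRed K K⟮x⟯ k (RatFunc k) A :=
  constRedOfQuot (u := baseUp J x) (v := baseDown J) J.π Polynomial.C (baseUp_injective h)
    J.π_surjective J.π_eq_zero
    (fun a => Subtype.ext (by rw [coe_baseUp, Polynomial.map_C, aeval_C]; rfl))
    (fun a => by simp [baseDown, RatFunc.algebraMap_C])

theorem base_red {e : K⟮x⟯} {r : RatFunc k} :
    h.base.Red e r ↔ IsQuot (baseUp J x) (baseDown J) e r := constRedOfQuot_red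

/-- Rational functions evaluated at the reduction of `x`. -/
def φ (h : J.MChart x xb) (i : ι) : RatFunc k →+* k⟮xb i⟯ :=
  RatFunc.liftRingHom (aeval (AdjoinSimple.gen k (xb i))).toRingHom
    (nonZeroDivisors_le_comap_nonZeroDivisors_of_injective _ (aeval_gen_injective (h.trans i)))

theorem coe_φ_algebraMap (i : ι) (p : k[X]) :
    ((h.φ i (algebraMap k[X] (RatFunc k) p) : k⟮xb i⟯) : Fk i) = aeval (xb i) p := by
  have h1 := RatFunc.liftRingHom_apply_div
    (φ := (aeval (AdjoinSimple.gen k (xb i))).toRingHom)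
    (hφ := nonZeroDivisors_le_comap_nonZeroDivisors_of_injective _
      (aeval_gen_injective (h.trans i))) p 1
  rw [map_one, div_one, map_one, div_one] at h1
  rw [φ, h1]
  exact coe_aeval_gen (xb i) p

/-- The base reduction is the restriction of each component. -/
theorem compat (i : ι) {e : K⟮x⟯} {r : RatFunc k} (he : h.base.Red e r) :
    (J.C i).Red (e : F) ((h.φ i r : k⟮xb i⟯) : Fk i) := by
  obtain ⟨P, Q, hQ, h1, h2⟩ := h.base_red.1 he
  have hQb : Q.map J.π ≠ 0 := fun h0 => hQ (by simp [baseDown, h0])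
  have hP := J.red_aeval h.red_x P i
  have hQ' := J.red_aeval h.red_x Q i
  have hne : aeval (xb i) (Q.map J.π) ≠ 0 :=
    fun h0 => hQb (transcendental_iff.1 (h.trans i) _ h0)
  have e1 : (e : F) = aeval x (P.map A.subtype) * (aeval x (Q.map A.subtype))⁻¹ := by
    rw [eq_mul_inv_iff_mul_eq₀ (hQ'.ne_zero hne), ← coe_baseUp (J := J) x Q,
      ← coe_baseUp (J := J) x P, ← MulMemClass.coe_mul, h1]
  have e2 : ((h.φ i r : k⟮xb i⟯) : Fk i) =
      aeval (xb i) (P.map J.π) * (aeval (xb i) (Q.map J.π))⁻¹ := by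
    rw [eq_mul_inv_iff_mul_eq₀ hne, ← h.coe_φ_algebraMap i, ← h.coe_φ_algebraMap i,
      ← MulMemClass.coe_mul, ← map_mul]
    exact congrArg (fun z => ((h.φ i z : k⟮xb i⟯) : Fk i)) h2
  rw [e1, e2]
  exact hP.mul (hQ'.inv hne)

theorem scaled_base : h.base.Scaled := by
  rintro ⟨e, he⟩ - he0
  obtain ⟨p, q, heq⟩ := (IntermediateField.mem_adjoin_simple_iff K e).1 he
  have he0' : e ≠ 0 := fun h0 => he0 (Subtype.ext h0)
  have hp : p ≠ 0 := fun h => he0' (by simp [heq, h])
  have hq : q ≠ 0 := fun h => he0' (by simp [heq, h])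
  set C := J.C (Classical.arbitrary ι)
  obtain ⟨c, P, -, rfl, hP⟩ := C.exists_scale_poly hp
  obtain ⟨d, Q, hd, rfl, hQ⟩ := C.exists_scale_poly hq
  rw [J.pi_eq] at hP hQ
  refine ⟨c / d, baseUp J x P * (baseUp J x Q)⁻¹, baseDown J P * (baseDown J Q)⁻¹,
    Subtype.ext ?_, ?_, mul_ne_zero (baseDown_ne_zero hP) (inv_ne_zero (baseDown_ne_zero hQ))⟩
  · show e = algebraMap K F (c / d) * (((baseUp J x P : K⟮x⟯) : F) * ((baseUp J x Q : K⟮x⟯) : F)⁻¹)
    rw [coe_baseUp, coe_baseUp, heq, map_mul, map_mul, aeval_C, aeval_C, map_div₀]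
    ring
  · exact (h.base_red.2 (isQuot_apply P)).mul ((h.base_red.2 (isQuot_apply Q)).inv
      (baseDown_ne_zero hQ))

end MChart

/-! ### Bases and norms -/

/-- The index set of the joint basis. -/
abbrev MChart.Idx (_h : J.MChart x xb) : Type _ :=
  Σ i, Fin (Module.finrank k⟮xb i⟯ (Fk i))

variable (hk : ∀ i, IsFunctionField k (Fk i)) (h : J.MChart x xb)

/-- The bases downstairs. -/
def MChart.bk (i : ι) : Module.Basis (Fin (Module.finrank k⟮xb i⟯ (Fk i))) k⟮xb i⟯ (Fk i) :=
  haveI := (hk i).finiteDimensional (h.trans i)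
  Module.finBasis k⟮xb i⟯ (Fk i)

variable [IsAlgClosed K] [Nonempty ι] [DecidableEq ι] (hF : IsFunctionField K F)

variable {hk} in
theorem MChart.exists_lifts (d : ι → ι → K) : ∃ y : h.Idx → F,
    (∀ p, J.Red (y p) (Pi.single p.1 (h.bk hk p.1 p.2))) ∧
      ∀ p : h.Idx, ∀ j, j ≠ p.1 → (J.C j).Red (algebraMap K F (d p.1 j) * y p) 0 := by
  choose y hy hy' using fun p : h.Idx => J.exists_small p.1 (h.bk hk p.1 p.2) (d p.1)
  exact ⟨y, hy, hy'⟩

variable {hk} {y : h.Idx → F} (hy : ∀ p, J.Red (y p) (Pi.single p.1 (h.bk hk p.1 p.2)))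
include hy

theorem MChart.red_combination {b : h.Idx → K⟮x⟯} {s : h.Idx → RatFunc k}
    (hb : ∀ p, h.base.Red (b p) (s p)) :
    J.Red (∑ p, (b p : F) * y p)
      (fun i => ∑ a, ((h.φ i (s ⟨i, a⟩) : k⟮xb i⟯) : Fk i) * h.bk hk i a) := by
  intro l
  have h1 := ConstRed.red_sum (C := J.C l) (s := (Finset.univ : Finset h.Idx))
    (f := fun p => (b p : F) * y p) fun p _ => (h.compat l (hb p)).mul (hy p l)
  have hσ := Finset.sum_sigma (Finset.univ : Finset ι)
    (fun i => (Finset.univ : Finset (Fin (Module.finrank k⟮xb i⟯ (Fk i)))))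
    (fun p => ((h.φ l (s p) : k⟮xb l⟯) : Fk l) *
      (Pi.single p.1 (h.bk hk p.1 p.2) : ∀ i, Fk i) l)
  rw [Finset.univ_sigma_univ] at hσ
  rw [hσ, Finset.sum_eq_single l (fun i _ hi => Finset.sum_eq_zero fun a _ => by
      simp [Pi.single_eq_of_ne (Ne.symm hi)]) (fun h' => absurd (Finset.mem_univ l) h')] at h1
  simpa using h1

theorem MChart.eq_zero_of_combination {s : h.Idx → RatFunc k}
    (hs : ∀ i, ∑ a, ((h.φ i (s ⟨i, a⟩) : k⟮xb i⟯) : Fk i) * h.bk hk i a = 0) : ∀ p, s p = 0 := by
  rintro ⟨i, a⟩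
  have h1 := Fintype.linearIndependent_iff.1 (h.bk hk i).linearIndependent
    (fun a => h.φ i (s ⟨i, a⟩)) (by
      simpa [IntermediateField.smul_def] using hs i) a
  exact (map_eq_zero (h.φ i)).1 h1

theorem MChart.linearIndependent_lift : LinearIndependent K⟮x⟯ y := by
  rw [Fintype.linearIndependent_iff]
  intro a ha
  rcases exists_normalize h.scaled_base a (fun _ => trivial) with h0 | ⟨c, b, s, hc, hab, hbs, p, hp⟩
  · exact h0
  exfalso
  have h0 : ∑ p, (b p : F) * y p = 0 := by
    have h2 : ∑ p, (a p : F) * y p = 0 := by simpa [IntermediateField.smul_def] using ha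
    simp only [hab, MulMemClass.coe_mul, mul_assoc, ← Finset.mul_sum] at h2
    refine (mul_eq_zero.1 h2).resolve_left ?_
    simpa [IntermediateField.algebraMap_apply] using hc
  have h1 := h.red_combination hy hbs
  rw [h0] at h1
  exact hp (h.eq_zero_of_combination hy (fun i => congrFun (h1.unique J.red_zero) i) p)

include hF

theorem MChart.exists_basis : ∃ B : Module.Basis h.Idx K⟮x⟯ F, ∀ p, B p = y p := by
  haveI := hF.finiteDimensional h.transX
  have hli := h.linearIndependent_lift hy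
  have hn : Module.finrank K⟮x⟯ F ≤ Fintype.card h.Idx := by
    rw [Fintype.card_sigma]
    simpa using h.degree_le
  haveI : Nonempty h.Idx := Fintype.card_pos_iff.1 (lt_of_lt_of_le Module.finrank_pos hn)
  exact ⟨basisOfLinearIndependentOfCardEqFinrank hli
    (le_antisymm hli.fintype_card_le_finrank hn), fun p => by simp⟩

/-- Coordinates of integral functions are integral. -/
theorem MChart.red_repr (B : Module.Basis h.Idx K⟮x⟯ F) (hB : ∀ p, B p = y p) {f : F}
    {r : ∀ i, Fk i} (hf : J.Red f r) : ∃ s : h.Idx → RatFunc k,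
      (∀ p, h.base.Red (B.repr f p) (s p)) ∧
        ∀ i, r i = ∑ a, ((h.φ i (s ⟨i, a⟩) : k⟮xb i⟯) : Fk i) * h.bk hk i a := by
  have hrep : f = ∑ p, (B.repr f p : F) * y p := by
    conv_lhs => rw [← B.sum_repr f]
    simp [IntermediateField.smul_def, hB]
  rcases exists_normalize h.scaled_base (fun p => B.repr f p) (fun _ => trivial) with
    h0 | ⟨c, b, s, hc, hab, hbs, p, hp⟩
  · refine ⟨fun _ => 0, fun p => by rw [h0 p]; exact ConstRed.red_zero, fun i => ?_⟩
    have hf0 : f = 0 := by rw [hrep]; simp [h0]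
    rw [hf0] at hf
    rw [hf.unique J.red_zero]
    simp
  have hcomb := h.red_combination hy hbs
  have hfc : f = algebraMap K F c * ∑ p, (b p : F) * y p := by
    conv_lhs => rw [hrep]
    simp only [hab, MulMemClass.coe_mul, mul_assoc, ← Finset.mul_sum]
    rfl
  obtain ⟨i, hi⟩ : ∃ i, ∑ a, ((h.φ i (s ⟨i, a⟩) : k⟮xb i⟯) : Fk i) * h.bk hk i a ≠ 0 := by
    by_contra hne
    push Not at hne
    exact hp (h.eq_zero_of_combination hy hne p)
  obtain ⟨hcA, -⟩ := (hcomb i).smul_cancel hi (hfc ▸ hf i)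
  refine ⟨fun p => algebraMap k (RatFunc k) (J.π ⟨c, hcA⟩) * s p, fun p => ?_, fun l => ?_⟩
  · rw [hab p]
    exact (ConstRed.red_const (C := h.base) ⟨c, hcA⟩).mul (hbs p)
  · have h1 := (hcomb.smul ⟨c, hcA⟩) l
    rw [← hfc] at h1
    rw [(hf l).unique h1, Pi.smul_apply, Finset.smul_sum]
    refine Finset.sum_congr rfl fun a _ => ?_
    rw [map_mul, MulMemClass.coe_mul, Algebra.smul_def, ← mul_assoc]
    congr 2
    rw [RatFunc.algebraMap_eq_C, ← RatFunc.algebraMap_C, h.coe_φ_algebraMap, aeval_C]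

omit hy
include hk

/-- The norm of a function scaled on each component reduces to the product of the norms. -/
theorem MChart.exists_norm {f : F} {c : ι → K} {g : ι → F} {r : ∀ i, Fk i}
    (hc : ∀ i, c i ≠ 0) (hfg : ∀ i, f = algebraMap K F (c i) * g i)
    (hr : ∀ i, (J.C i).Red (g i) (r i)) :
    ∃ (c₀ : K) (z : K⟮x⟯) (D : ι → RatFunc k), c₀ ≠ 0 ∧
      Algebra.norm K⟮x⟯ f = algebraMap K K⟮x⟯ c₀ * z ∧ h.base.Red z (∏ i, D i) ∧
      ∀ i, h.φ i (D i) = Algebra.norm k⟮xb i⟯ (r i) := by
  classical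
  obtain ⟨y, hy, hsmall⟩ := h.exists_lifts (hk := hk) (fun i j => c j / c i)
  obtain ⟨B, hB⟩ := h.exists_basis hF hy
  have hu : ∀ p : h.Idx, J.Red (g p.1 * y p) (Pi.single p.1 (r p.1 * h.bk hk p.1 p.2)) := by
    intro p l
    rcases eq_or_ne l p.1 with rfl | hl
    · have h1 := (hr p.1).mul (hy p p.1)
      rw [Pi.single_eq_same] at h1 ⊢
      exact h1
    · rw [Pi.single_eq_of_ne hl]
      have e : g p.1 = algebraMap K F (c l / c p.1) * g l := by
        have h1 := hfg l
        rw [hfg p.1] at h1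
        rw [map_div₀, div_mul_eq_mul_div, ← h1,
          mul_div_cancel_left₀ _ ((_root_.map_ne_zero _).2 (hc p.1))]
      rw [e, mul_assoc, mul_left_comm]
      have h2 := (hr l).mul (hsmall p l hl)
      rwa [mul_zero] at h2
  choose s hs hsr using fun p : h.Idx => h.red_repr hF hy B hB (hu p)
  have hoff : ∀ (p q : h.Idx), q.1 ≠ p.1 → s p q = 0 := by
    rintro p ⟨i, a⟩ hne
    have h1 := hsr p i
    rw [Pi.single_eq_of_ne hne] at h1
    have h2 := Fintype.linearIndependent_iff.1 (h.bk hk i).linearIndependent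
      (fun a => h.φ i (s p ⟨i, a⟩)) (by simpa [IntermediateField.smul_def] using h1.symm) a
    exact (map_eq_zero (h.φ i)).1 h2
  let S : Matrix h.Idx h.Idx (RatFunc k) := fun q p => s p q
  let Mz : Matrix h.Idx h.Idx h.base.G := fun q p => ⟨_, (hs p q).1⟩
  have hM1 : Algebra.leftMulMatrix B f =
      (Mz.map h.base.G.subtype) * Matrix.diagonal (fun p => algebraMap K K⟮x⟯ (c p.1)) := by
    ext q p
    rw [Matrix.mul_diagonal, Algebra.leftMulMatrix_eq_repr_mul, Matrix.map_apply]
    have e : f * B p = (algebraMap K K⟮x⟯ (c p.1)) • (g p.1 * y p) := by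
      rw [hB, IntermediateField.smul_def, smul_eq_mul]
      conv_lhs => rw [hfg p.1]
      rw [mul_assoc]; rfl
    rw [e, map_smul, Finsupp.smul_apply, smul_eq_mul, mul_comm]
    rfl
  have hM2 : Mz.map h.base.red = S := Matrix.ext fun q p => (hs p q).2
  have hdet : h.base.Red (Mz.map h.base.G.subtype).det S.det := by
    rw [← hM2, show (Mz.map h.base.G.subtype).det = h.base.G.subtype Mz.det from
      (RingHom.map_det _ _).symm, show (Mz.map h.base.red).det = h.base.red Mz.det from
      (RingHom.map_det _ _).symm]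
    exact red_of_mem _
  let e := Fintype.equivFin ι
  have htri : Matrix.BlockTriangular S (fun p : h.Idx => e p.1) := fun q p hqp =>
    hoff p q fun he => (ne_of_lt hqp) (congrArg e he).symm
  let D : ι → RatFunc k := fun i => (S.submatrix (Sigma.mk i) (Sigma.mk i)).det
  have hD : S.det = ∏ i, D i := by
    rw [htri.det_fintype, ← e.prod_comp]
    refine Finset.prod_congr rfl fun i _ => ?_
    let eq : Fin (Module.finrank k⟮xb i⟯ (Fk i)) ≃ {p : h.Idx // e p.1 = e i} :=
      { toFun := fun a => ⟨⟨i, a⟩, rfl⟩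
        invFun := fun p => Fin.cast (by rw [e.injective p.2]) p.1.2
        left_inv := fun a => rfl
        right_inv := fun ⟨⟨j, a⟩, hj⟩ => by
          obtain rfl : j = i := e.injective hj
          rfl }
    rw [← Matrix.det_submatrix_equiv_self eq]
    rfl
  refine ⟨∏ p : h.Idx, c p.1, _, D, Finset.prod_ne_zero_iff.2 fun p _ => hc p.1, ?_, hD ▸ hdet,
    fun i => ?_⟩
  · rw [Algebra.norm_eq_matrix_det B, hM1, Matrix.det_mul, Matrix.det_diagonal, map_prod, mul_comm]
  · simp only [D]
    rw [Algebra.norm_eq_matrix_det (h.bk hk i), RingHom.map_det]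
    congr 1
    ext b a
    have h1 := hsr ⟨i, a⟩ i
    rw [Pi.single_eq_same] at h1
    rw [Algebra.leftMulMatrix_eq_repr_mul, RingHom.mapMatrix_apply, Matrix.map_apply]
    have h2 : r i * h.bk hk i a = ∑ b, h.φ i (s ⟨i, a⟩ ⟨i, b⟩) • h.bk hk i b := by
      simpa [IntermediateField.smul_def] using h1
    rw [h2, Module.Basis.repr_sum_self]
    rfl

end MultiRed

end FA.ModField
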