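import Fermat.Agent.ModField.Semistable.Joint.Spl
import Fermat.Agent.ModField.Semistable.Fibre

/-!
# The semistable fibre from several reductions
-/

set_option autoImplicit false
set_option linter.style.haveILetI false
set_option linter.unusedSectionVars false

noncomputable section

namespace FA.ModField

open AlgebraicCurve FA.Curve FA.CurveRed FA.CurveRed.ConstRed Polynomial IntermediateField

variable {K F k : Type*} [Field K] [IsAlgClosed K] [Field F] [Algebra K F] [Field k]
  [IsAlgClosed k] {ι : Type*} [Fintype ι] [Nonempty ι] [DecidableEq ι] {Fk : ι → Type*}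
  [∀ i, Field (Fk i)] [∀ i, Algebra k (Fk i)] {A : ValuationSubring K}

namespace FibreHyp

variable {J : MultiRed K F k Fk A} {hF : IsFunctionField K F}
  {hk : ∀ i, IsFunctionField k (Fk i)} {x : F} {xb : ∀ i, Fk i} (H : FibreHyp J hF hk x xb)

/-- The branches. -/
def Br (_H : FibreHyp J hF hk x xb) : Type _ := {q : Σ i, Place k (Fk i) // J.IsBranch x xb q}

instance : Fintype H.Br := H.finite_branches.fintype

/-- Branches at the same singular point. -/
def sameSetoid : Setoid H.Br where
  r b b' := J.SameVal x b.1 b'.1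
  iseqv :=
    { refl := fun _ _ _ _ h => h
      symm := fun {b _} h => H.sameVal_symm b.2.1 h
      trans := fun h h' => FibreHyp.sameVal_trans h h' }

/-- The singular points. -/
def Sg : Type _ := Quotient H.sameSetoid

/-- The singular point of a branch. -/
def sgPt (b : H.Br) : H.Sg := Quotient.mk H.sameSetoid b

theorem sgPt_surjective : Function.Surjective H.sgPt := Quotient.mk_surjective

theorem sgPt_eq {b b' : H.Br} : H.sgPt b = H.sgPt b' ↔ J.SameVal x b.1 b'.1 := Quotient.eq''

instance : Fintype H.Sg :=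
  haveI : Finite H.Sg := Finite.of_surjective _ H.sgPt_surjective
  Fintype.ofFinite _

theorem not_branch_of_ne {i : ι} {Q : Place k (Fk i)} (h : ∀ b : H.Br, b.1 ≠ ⟨i, Q⟩) :
    ¬ J.IsBranch x xb ⟨i, Q⟩ := fun hb => h ⟨_, hb⟩ rfl

/-- Values at the branches that agree along each singular point. -/
def glueValues (H : FibreHyp J hF hk x xb) : Submodule k (H.Br → k) :=
  LinearMap.range (LinearMap.funLeft k k H.sgPt)

theorem finrank_glueValues : Module.finrank k H.glueValues = Fintype.card H.Sg := by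
  rw [glueValues, LinearMap.finrank_range_of_inj (LinearMap.funLeft_injective_of_surjective k k
    H.sgPt H.sgPt_surjective), Module.finrank_fintype_fun_eq_card]

include H in
theorem genus_bound : (FA.Curve.genus K F : ℤ) + Fintype.card H.Sg + Fintype.card ι ≤
    (∑ i, (FA.Curve.genus k (Fk i) : ℤ)) + Fintype.card H.Br + 1 := by
  classical
  set br : H.Br → Σ i, Place k (Fk i) := Subtype.val
  obtain ⟨m₁, hm₁⟩ := H.exists_lift_big
  obtain ⟨N, hN⟩ := exists_big_bound br hk
  obtain ⟨c, hc⟩ := exists_threshold hF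
  obtain ⟨m, hm1, hmN, hmc⟩ : ∃ m : ℕ, m₁ ≤ m ∧ (N : ℤ) ≤ (m : ℤ) ∧ c ≤ (m : ℤ) :=
    ⟨m₁ + N + c.toNat, by omega, by omega, by omega⟩
  set T := fun i => m • poleDiv (hk i) (xb i)
  have hx := H.chart.transX
  have hav : Avoids br T := fun b =>
    MultiRed.nsmul_poleDiv_of_nonneg (hk b.1.1) b.2.1 m
  have hbig := hN T hav fun i =>
    hmN.trans (MultiRed.le_degree_nB (hk i) (H.chart.trans i) m)
  set G := evalSpace br T H.glueValues
  haveI := finite_evalSpace br hk T H.glueValues
  haveI := finite_riemannRochSpace hF (m • poleDiv hF x)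
  have hlift : ∀ r ∈ G, ∃ u ∈ riemannRochSpace (m • poleDiv hF x), J.Red u r := by
    rintro r ⟨hrT, v, ⟨w, rfl⟩, hv⟩
    refine hm₁ m hm1 r (H.mem_glued_of_values
      (fun i => ((mem_riemannRoch_nB (hk i) (H.chart.trans i)).1 (hrT i)).1)
      fun q q' hq hq' hs a ha => ?_) hrT
    have h1 := hv ⟨q, hq⟩
    have h2 := hv ⟨q', hq'⟩
    change HasValue q.2 (r q.1) (w (H.sgPt ⟨q, hq⟩)) at h1
    change HasValue q'.2 (r q'.1) (w (H.sgPt ⟨q', hq'⟩)) at h2
    rw [← (H.sgPt_eq (b := ⟨q, hq⟩) (b' := ⟨q', hq'⟩)).2 hs] at h2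
    rwa [ha.unique h1]
  let b := Module.finBasis k G
  choose u hu hur using fun l => hlift (b l : ∀ i, Fk i) (b l).2
  have hli : LinearIndependent K u := by
    rw [Fintype.linearIndependent_iff]
    intro a ha
    by_contra hne
    push Not at hne
    obtain ⟨j, hj0, hj⟩ := exists_max_coeff A a hne
    have h1 : J.Red (∑ l, algebraMap K F (a l / a j) * u l)
        (∑ l, J.π ⟨_, hj l⟩ • (b l : ∀ i, Fk i)) := MultiRed.red_sum fun l _ => (hur l).smul ⟨_, hj l⟩
    have h0 : ∑ l, algebraMap K F (a l / a j) * u l = 0 := by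
      have h2 : ∑ l, algebraMap K F (a l) * u l = 0 := by simpa [Algebra.smul_def] using ha
      rw [← mul_zero (algebraMap K F (a j)⁻¹), ← h2, Finset.mul_sum]
      exact Finset.sum_congr rfl fun l _ => by rw [div_eq_inv_mul, map_mul, mul_assoc]
    rw [h0] at h1
    have h3 := Fintype.linearIndependent_iff.1
      (b.linearIndependent.map' G.subtype (Submodule.ker_subtype _)) (fun l => J.π ⟨_, hj l⟩)
      (by simpa using (h1.unique J.red_zero)) j
    rw [show (⟨a j / a j, hj j⟩ : A) = 1 from Subtype.ext (div_self hj0), map_one] at h3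
    exact one_ne_zero h3
  have hcard := (LinearIndependent.of_comp (riemannRochSpace (m • poleDiv hF x)).subtype
    (v := fun l => (⟨u l, hu l⟩ : riemannRochSpace (m • poleDiv hF x))) hli).fintype_card_le_finrank
  rw [Fintype.card_fin] at hcard
  have e1 := finrank_evalSpace br hk Subtype.val_injective hbig H.glueValues
  rw [H.finrank_glueValues, Finset.sum_congr rfl fun i _ => (hbig.2 i).1,
    Finset.sum_sub_distrib, Finset.sum_add_distrib, Finset.sum_const, Finset.card_univ,
    nsmul_one] at e1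
  have hnn := finrank_adjoin_pos hF hx
  have hdX : Divisor.degree (m • poleDiv hF x) = (m : ℤ) * Module.finrank K⟮x⟯ F := by
    rw [map_nsmul, degree_poleDiv hF hx, nsmul_eq_mul]
  have e2 := hc (m • poleDiv hF x) (by rw [hdX]; nlinarith)
  have hdB : ∑ i, Divisor.degree (T i) =
      (m : ℤ) * ∑ i, (Module.finrank k⟮xb i⟯ (Fk i) : ℤ) := by
    rw [Finset.mul_sum]
    exact Finset.sum_congr rfl fun i _ => by
      rw [map_nsmul, degree_poleDiv (hk i) (H.chart.trans i), nsmul_eq_mul]
  have e3 : (Module.finrank K⟮x⟯ F : ℤ) ≤ ∑ j, (Module.finrank k⟮xb j⟯ (Fk j) : ℤ) := by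
    exact_mod_cast H.chart.degree_le
  have e4 := mul_le_mul_of_nonneg_left e3 (Int.natCast_nonneg m)
  rw [hdX] at e2
  rw [hdB] at e1
  simp only [ell] at e2
  simp only [G] at hcard
  linarith [(Int.ofNat_le.2 hcard)]

/-- The semistable fibre. -/
def semiFibre (hconn : ∀ c : ι → k, (∀ b b' : H.Br, H.sgPt b = H.sgPt b' → c b.1.1 = c b'.1.1) →
    ∀ i j, c i = c j) : SemiFibre K F k Fk A H.Br H.Sg where
  C := J.C
  π := J.π
  pi_eq := J.pi_eq
  scaled := J.scaled
  br := Subtype.val
  br_inj := Subtype.val_injective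
  pt := H.sgPt
  pt_surj := H.sgPt_surjective
  spl := H.splMap
  spl_ne_br P b h := (H.splMap_eq_some.1 h).2 b.2
  spl_surj := fun ⟨_, _⟩ hx => H.spl_surj (H.not_branch_of_ne hx)
  div_red i g r hgr hr Q hQ D hD := by
    rw [show D = divOf hF g from Finsupp.ext fun P => (hD P).trans (divOf_apply hF g P).symm]
    exact H.div_red hgr hr (H.not_branch_of_ne hQ)
  glue f r hfr hf := by
    have hrep : ∀ s, H.sgPt (Function.surjInv H.sgPt_surjective s) = s :=
      Function.surjInv_eq H.sgPt_surjective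
    choose v hv hv' using fun s : H.Sg =>
      H.glue (r := r) hfr hf _ (Function.surjInv H.sgPt_surjective s).2
    exact ⟨v, fun b => hv' (H.sgPt b) b.1 b.2 (H.sgPt_eq.1 (hrep _))⟩
  connected := hconn
  genus_le := H.genus_bound

theorem semiFibre_C (hconn : ∀ c : ι → k,
    (∀ b b' : H.Br, H.sgPt b = H.sgPt b' → c b.1.1 = c b'.1.1) → ∀ i j, c i = c j) (i : ι) :
    (H.semiFibre hconn).C i = J.C i := rfl

end FibreHyp

end FA.ModField
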