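import Fermat.Agent.ModField.Semistable.Joint.Build
import Fermat.Agent.ModField.Semistable.Toric

/-!
# Symmetries of the glued fibre

A semilinear automorphism fixing the chart and inducing semilinear automorphisms of the components
preserves the branches; if it fixes each of them it is a symmetry of the semistable fibre.
-/

set_option autoImplicit false
set_option linter.style.haveILetI false
set_option linter.unusedSectionVars false

noncomputable section

namespace FA.ModField

open AlgebraicCurve FA.Curve FA.CurveRed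

section General

variable {K F : Type*} [Field K] [Field F] [Algebra K F]

theorem atLeast_smul (g : SemilinearAut K F) {P : Place K F} {n : ℤ} {f : F}
    (h : AtLeast P n f) : AtLeast (g • P) n (g • f) := by
  rcases h with h | h
  · exact Or.inl (by rw [h, smul_zero])
  · exact Or.inr (by rw [SemilinearAut.ord_smul]; exact h)

theorem hasValue_smul (g : SemilinearAut K F) {P : Place K F} {f : F} {c : K}
    (h : HasValue P f c) : HasValue (g • P) (g • f) (SemilinearAut.baseAut g c) := by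
  have h1 := atLeast_smul g h
  rwa [smul_sub, SemilinearAut.smul_algebraMap] at h1

theorem regSub_smul (g : SemilinearAut K F) {x u : F} (hx : g • x = x)
    (hu : u ∈ regSub (K := K) x) : g • u ∈ regSub (K := K) x := by
  intro P hP
  have h1 : 0 ≤ (g⁻¹ • P).ord x := by
    have := SemilinearAut.ord_smul g (g⁻¹ • P) x
    rw [smul_inv_smul, hx] at this
    rwa [← this]
  have h2 := atLeast_smul g (hu _ h1)
  rwa [smul_inv_smul] at h2

end General

variable {K F k : Type*} [Field K] [IsAlgClosed K] [Field F] [Algebra K F] [Field k]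
  [IsAlgClosed k] {ι : Type*} [Fintype ι] [Nonempty ι] [DecidableEq ι] {Fk : ι → Type*}
  [∀ i, Field (Fk i)] [∀ i, Algebra k (Fk i)] {A : ValuationSubring K}

/-- `g` is what `s` induces on the components. -/
structure Induced (J : MultiRed K F k Fk A) (x : F) (s : SemilinearAut K F)
    (g : ∀ i, SemilinearAut k (Fk i)) (φ : k ≃+* k) : Prop where
  fix : s • x = x
  twine : ∀ i f r, (J.C i).Red f r → (J.C i).Red (s • f) (g i • r)
  base : ∀ i a, SemilinearAut.baseAut (g i) a = φ a
  int : ∀ a : A, ∃ b : A, (b : K) = SemilinearAut.baseAut s a ∧ J.π b = φ (J.π a)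

variable {J : MultiRed K F k Fk A} {hF : IsFunctionField K F}
  {hk : ∀ i, IsFunctionField k (Fk i)} {x : F} {xb : ∀ i, Fk i}

theorem Induced.one : Induced J x 1 (fun _ => 1) 1 where
  fix := one_smul _ _
  twine i f r h := by rwa [one_smul, one_smul]
  base i a := rfl
  int a := ⟨a, rfl, rfl⟩

theorem Induced.mul {s s' : SemilinearAut K F} {g g' : ∀ i, SemilinearAut k (Fk i)}
    {φ φ' : k ≃+* k} (h : Induced J x s g φ) (h' : Induced J x s' g' φ') :
    Induced J x (s * s') (g * g') (φ * φ') where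
  fix := by rw [mul_smul, h'.fix, h.fix]
  twine i f r hr := by
    rw [mul_smul, Pi.mul_apply, mul_smul]
    exact h.twine i _ _ (h'.twine i _ _ hr)
  base i a := by
    rw [Pi.mul_apply, SemilinearAut.baseAut_mul]
    show SemilinearAut.baseAut (g i) (SemilinearAut.baseAut (g' i) a) = φ (φ' a)
    rw [h'.base, h.base]
  int a := by
    obtain ⟨b, hb, hbπ⟩ := h'.int a
    obtain ⟨c, hc, hcπ⟩ := h.int b
    refine ⟨c, ?_, ?_⟩
    · rw [hc, hb]; rfl
    · rw [hcπ, hbπ]; rfl

theorem Induced.pow {s : SemilinearAut K F} {g : ∀ i, SemilinearAut k (Fk i)}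
    {φ : k ≃+* k} (h : Induced J x s g φ) : ∀ m : ℕ, Induced J x (s ^ m) (g ^ m) (φ ^ m) := by
  intro m
  induction m with
  | zero => rw [pow_zero, pow_zero, pow_zero]; exact Induced.one
  | succ m ih => rw [pow_succ', pow_succ', pow_succ']; exact h.mul ih

/-- Induced automorphisms preserve the glued ring. -/
theorem Induced.glued_mem {s : SemilinearAut K F} {g : ∀ i, SemilinearAut k (Fk i)}
    {φ : k ≃+* k} (h : Induced J x s g φ) {ub : ∀ i, Fk i} (hub : ub ∈ J.glued x) :
    (fun i => g i • ub i) ∈ J.glued x := by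
  obtain ⟨u, hu, hue⟩ := hub
  exact ⟨s • u, regSub_smul s h.fix hu, fun i => h.twine i _ _ (hue i)⟩

namespace FibreHyp

variable (H : FibreHyp J hF hk x xb)

include H in
/-- The image of a branch is a branch. -/
theorem isBranch_smul {s : SemilinearAut K F} {g : ∀ i, SemilinearAut k (Fk i)}
    {φ : k ≃+* k} (h : Induced J x s (fun i => (g i)⁻¹) φ) (hxb : ∀ i, g i • xb i = xb i)
    {q : Σ i, Place k (Fk i)} (hq : J.IsBranch x xb q) :
    J.IsBranch x xb ⟨q.1, g q.1 • q.2⟩ := by
  classical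
  obtain ⟨i, Q⟩ := q
  obtain ⟨hfin, hz⟩ := (H.isBranch_iff _).1 hq
  refine (H.isBranch_iff _).2 ⟨?_, fun r hr => ?_⟩
  · show 0 ≤ (g i • Q).ord (xb i)
    rw [← hxb i, SemilinearAut.ord_smul]
    exact hfin
  · have h1 := h.glued_mem hr
    rw [show (fun j => (g j)⁻¹ • (Pi.single i r : ∀ l, Fk l) j) = Pi.single i ((g i)⁻¹ • r) from
      funext fun j => by
        rcases eq_or_ne j i with rfl | hj
        · rw [Pi.single_eq_same, Pi.single_eq_same]
        · rw [Pi.single_eq_of_ne hj, Pi.single_eq_of_ne hj, smul_zero]] at h1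
    have h2 := atLeast_smul (g i) (hz _ h1)
    rwa [smul_inv_smul] at h2

include H in
/-- Some power of an automorphism preserving the branches fixes all of them. -/
theorem exists_pow_fix {s : SemilinearAut K F} {g : ∀ i, SemilinearAut k (Fk i)}
    {φ : k ≃+* k} (h : Induced J x s (fun i => (g i)⁻¹) φ) (hxb : ∀ i, g i • xb i = xb i) :
    ∃ m : ℕ, 0 < m ∧
      ∀ q : Σ i, Place k (Fk i), J.IsBranch x xb q → (g q.1) ^ m • q.2 = q.2 := by
  classical
  let f : H.Br → H.Br := fun b => ⟨⟨b.1.1, g b.1.1 • b.1.2⟩, H.isBranch_smul h hxb b.2⟩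
  have hinj : Function.Injective f := by
    rintro ⟨⟨i, Q⟩, hQ⟩ ⟨⟨j, Q'⟩, hQ'⟩ e
    obtain ⟨rfl, e2⟩ := Sigma.mk.inj (congrArg Subtype.val e)
    have e3 := MulAction.injective (g i) (eq_of_heq e2)
    subst e3
    rfl
  let p : Equiv.Perm H.Br := Equiv.ofBijective f (Finite.injective_iff_bijective.1 hinj)
  have key : ∀ (n : ℕ) (b : H.Br), ((p ^ n) b).1 = ⟨b.1.1, (g b.1.1) ^ n • b.1.2⟩ := by
    intro n
    induction n with
    | zero => intro b; simp
    | succ n ih =>
      intro b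
      rw [pow_succ, Equiv.Perm.mul_apply, ih]
      show (⟨b.1.1, (g b.1.1) ^ n • (g b.1.1 • b.1.2)⟩ : Σ i, Place k (Fk i)) = _
      rw [pow_succ, mul_smul]
  refine ⟨orderOf p, orderOf_pos p, fun q hq => ?_⟩
  have h1 := key (orderOf p) ⟨q, hq⟩
  rw [pow_orderOf_eq_one] at h1
  have h2 : (⟨q.1, q.2⟩ : Σ i, Place k (Fk i)) = ⟨q.1, (g q.1) ^ orderOf p • q.2⟩ := h1
  exact (eq_of_heq (Sigma.mk.inj h2).2).symm

include H in
/-- Places over smooth points are not moved into the tubes. -/
theorem splMap_none_of_smul {s : SemilinearAut K F} {g : ∀ i, SemilinearAut k (Fk i)}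
    {φ : k ≃+* k} (h : Induced J x s g φ)
    (hfix : ∀ q : Σ i, Place k (Fk i), J.IsBranch x xb q → g q.1 • q.2 = q.2) {P : Place K F}
    (hP : H.splMap (s • P) = none) : H.splMap P = none := by
  classical
  rw [splMap_eq_none] at hP ⊢
  obtain ⟨c', hc'A, hc'⟩ := (H.finPt_ctr (s • P)).1 hP.1
  have hin : J.Inside x P := by
    have hx0 : x ≠ 0 := H.chart.xb_ne_zero (Classical.arbitrary ι) |> fun hne => by
      intro h0
      exact hne (((H.chart.red_x _).unique (h0 ▸ ConstRed.red_zero)))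
    have hnn : 0 ≤ P.ord x := by
      have h1 := (atLeast_iff hx0).1 hc'.atLeast
      rwa [← h.fix, SemilinearAut.ord_smul] at h1
    obtain ⟨c, hc⟩ := exists_hasValue hF (Or.inr hnn : AtLeast P 0 x)
    refine ⟨c, ?_, hc⟩
    have h1 := hasValue_smul s hc
    rw [h.fix] at h1
    have hcc : c' = SemilinearAut.baseAut s c := hc'.unique h1
    by_contra hcA
    have hci : c⁻¹ ∈ A := (A.mem_or_inv_mem c).resolve_left hcA
    have hπ : J.π ⟨c⁻¹, hci⟩ = 0 := by
      rw [J.π_eq_zero]
      show A.valuation c⁻¹ < 1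
      rw [map_inv₀]
      exact inv_lt_one_of_one_lt₀
        (lt_of_not_ge fun h' => hcA ((A.valuation_le_one_iff c).1 h'))
    obtain ⟨b, hb, hbπ⟩ := h.int ⟨c⁻¹, hci⟩
    rw [hπ, map_zero, J.π_eq_zero, hb] at hbπ
    change A.valuation (SemilinearAut.baseAut s c⁻¹) < 1 at hbπ
    rw [map_inv₀, map_inv₀, ← hcc] at hbπ
    have h2 : A.valuation c' ≤ 1 := (A.valuation_le_one_iff c').2 hc'A
    have hc0 : c ≠ 0 := fun h0 => hcA (h0 ▸ zero_mem A)
    have h3 : A.valuation c' ≠ 0 := by
      rw [Valuation.ne_zero_iff, hcc]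
      simpa using hc0
    exact absurd hbπ (not_lt.2 ((one_le_inv₀ (zero_lt_iff.2 h3)).2 h2))
  by_contra hnb
  obtain ⟨e, ⟨u, hu, hue⟩, he0, he1⟩ := H.exists_one_vanishing ((H.finPt_ctr P).2 hin) hnb
  obtain ⟨m, hm⟩ := MultiRed.exists_mem_nB hF H.chart.transX hu
  obtain ⟨b, hb⟩ := exists_hasValue hF (H.nUp_regular (P := P) (hm m le_rfl))
  obtain ⟨hbA, hv⟩ := (H.exists_nctr P).choose_spec.2 m u e (hm m le_rfl) hue b hb
  change HasValue (H.ctr P).2 (e (H.ctr P).1 * MultiRed.nDown xb (H.ctr P) ^ m) _ at hv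
  rw [MultiRed.nDown, if_pos ((H.finPt_ctr P).2 hin), one_pow, mul_one] at hv
  rw [MultiRed.nUp, if_pos hin, one_pow, mul_one] at hb
  have hbπ := hv.unique he0
  obtain ⟨b', hb', hb'π⟩ := h.int ⟨b, hbA⟩
  rw [hbπ, map_zero] at hb'π
  obtain ⟨n, hn⟩ := MultiRed.exists_mem_nB hF H.chart.transX (regSub_smul s h.fix hu)
  have hb2 := hasValue_smul s hb
  obtain ⟨_, hv'⟩ := (H.exists_nctr (s • P)).choose_spec.2 n (s • u) (fun i => g i • e i)
    (hn n le_rfl) (fun i => h.twine i _ _ (hue i)) (b' : K) (by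
      rw [MultiRed.nUp, if_pos ⟨c', hc'A, hc'⟩, one_pow, mul_one, hb']
      exact hb2)
  change HasValue (H.ctr (s • P)).2
    (g (H.ctr (s • P)).1 • e (H.ctr (s • P)).1 * MultiRed.nDown xb (H.ctr (s • P)) ^ n) _ at hv'
  rw [MultiRed.nDown, if_pos hP.1, one_pow, mul_one] at hv'
  have h1 := hasValue_smul (g (H.ctr (s • P)).1) (he1 _ hP)
  rw [h.base, map_one, hfix _ hP] at h1
  have h2 := h1.unique hv'
  rw [hb'π] at h2
  exact one_ne_zero h2

/-- An automorphism fixing all branches is a symmetry of the fibre. -/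
def symm (hconn : ∀ c : ι → k, (∀ b b' : H.Br, H.sgPt b = H.sgPt b' → c b.1.1 = c b'.1.1) →
      ∀ i j, c i = c j)
    {s : SemilinearAut K F} {g : ∀ i, SemilinearAut k (Fk i)} {φ : k ≃+* k}
    (h : Induced J x s g φ)
    (hfix : ∀ q : Σ i, Place k (Fk i), J.IsBranch x xb q → g q.1 • q.2 = q.2) :
    (H.semiFibre hconn).Symm where
  s := s
  θ i := (SemilinearAut.toRingAut (g i)).toRingHom
  θk := φ.toRingHom
  e := Equiv.refl H.Br
  intertwines i f r hr := h.twine i f r hr
  θ_const i a := by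
    show SemilinearAut.toRingAut (g i) (algebraMap k (Fk i) a) = algebraMap k (Fk i) (φ a)
    rw [SemilinearAut.commutes, h.base]
  comp_e b := rfl
  pt_e b b' := Iff.rfl
  value b r v hv := by
    have h1 := hasValue_smul (g b.1.1) (P := b.1.2) hv
    rw [h.base, hfix b.1 b.2] at h1
    exact h1
  tube P hP := H.splMap_none_of_smul h hfix hP

theorem symm_spec (hconn : ∀ c : ι → k,
      (∀ b b' : H.Br, H.sgPt b = H.sgPt b' → c b.1.1 = c b'.1.1) → ∀ i j, c i = c j)
    {s : SemilinearAut K F} {g : ∀ i, SemilinearAut k (Fk i)} {φ : k ≃+* k}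
    (h : Induced J x s g φ)
    (hfix : ∀ q : Σ i, Place k (Fk i), J.IsBranch x xb q → g q.1 • q.2 = q.2) :
    (H.symm hconn h hfix).s = s ∧ (H.symm hconn h hfix).θk = φ.toRingHom ∧
      (∀ i, (H.symm hconn h hfix).θ i = (SemilinearAut.toRingAut (g i)).toRingHom) ∧
      (H.symm hconn h hfix).e = Equiv.refl H.Br :=
  ⟨rfl, rfl, fun _ => rfl, rfl⟩

end FibreHyp

end FA.ModField
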