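import Fermat.Agent.CurveRed.Spl
import Fermat.Agent.Curve.DualityGenus

/-!
# Functions with prescribed orders in Riemann-Roch spaces of large degree
-/

set_option autoImplicit false
set_option linter.style.haveILetI false
set_option linter.unusedSectionVars false

noncomputable section

namespace FA.ModField.MultiRed

open AlgebraicCurve FA.Curve

variable {k F : Type*} [Field k] [IsAlgClosed k] [Field F] [Algebra k F] (hF : IsFunctionField k F)

include hF

/-- In large degree every value of the bound is attained at finitely many given places. -/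
theorem exists_exact : ∃ c : ℤ, ∀ D : Divisor k F, c ≤ Divisor.degree D →
    ∀ S : Finset (Place k F), ∃ r ∈ riemannRochSpace D, r ≠ 0 ∧ ∀ v ∈ S, v.ord r = -D v := by
  classical
  obtain ⟨c, hc⟩ := exists_threshold hF
  refine ⟨max c (genus k F) + 1, fun D hD S => ?_⟩
  haveI := infinite_places hF
  obtain ⟨v₀, hv₀⟩ := S.finite_toSet.infinite_compl.nonempty
  set S' := insert v₀ S
  let sub : S' → Submodule k (riemannRochSpace D) := fun v => Submodule.comap
    (riemannRochSpace D).subtype (riemannRochSpace (D - Finsupp.single (v : Place k F) 1))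
  have hsub : ∀ v, sub v ≠ ⊤ := by
    intro v htop
    haveI := finite_riemannRochSpace hF (D - Finsupp.single (v : Place k F) 1)
    have hle : ell D ≤ ell (D - Finsupp.single (v : Place k F) 1) :=
      Int.ofNat_le.2 (Submodule.finrank_mono (Submodule.comap_subtype_eq_top.1 htop))
    rw [hc D (by omega), hc _ (by rw [map_sub, Divisor.degree_single, hF.deg_eq_one]; omega),
      map_sub, Divisor.degree_single, hF.deg_eq_one] at hle
    omega
  obtain ⟨⟨r, hr⟩, hrn⟩ := Submodule.exists_forall_notMem_of_forall_ne_top sub hsub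
  have hr0 : r ≠ 0 := fun h0 => hrn ⟨v₀, Finset.mem_insert_self _ _⟩ (by
    show r ∈ riemannRochSpace _
    rw [h0]; exact zero_mem _)
  refine ⟨r, hr, hr0, fun v hv => ?_⟩
  have hno := hrn ⟨v, Finset.mem_insert_of_mem hv⟩
  change ¬ r ∈ riemannRochSpace _ at hno
  rw [FA.Curve.mem_riemannRochSpace] at hno hr
  push Not at hno
  obtain ⟨u, hu⟩ := hno
  have h1 := (atLeast_iff hr0).1 (hr u)
  have h2 := (atLeast_iff hr0).1 (hr v)
  rw [atLeast_iff hr0, Finsupp.sub_apply] at hu
  rcases eq_or_ne u v with rfl | hne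
  · rw [Finsupp.single_eq_same] at hu
    omega
  · rw [Finsupp.single_eq_of_ne hne] at hu
    omega

/-- The same with prescribed value `1` on a set `T`, given one function with that property. -/
theorem exists_exact_one : ∃ c : ℤ, ∀ (D : Divisor k F) (T S : Finset (Place k F)), Disjoint S T →
    (∀ v ∈ T, D v = 0) → c + T.card ≤ Divisor.degree D →
    ∀ e ∈ riemannRochSpace D, (∀ v ∈ T, HasValue v e 1) →
      ∃ r ∈ riemannRochSpace D, r ≠ 0 ∧ (∀ v ∈ S, v.ord r = -D v) ∧
        ∀ v ∈ T, HasValue v r 1 := by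
  classical
  obtain ⟨c, hc⟩ := exists_exact hF
  refine ⟨c, fun D T S hST hT hdeg e he he1 => ?_⟩
  set D' := D - ∑ v ∈ T, Finsupp.single v (1 : ℤ) with hD'
  have hsum : ∀ w, (∑ v ∈ T, Finsupp.single v (1 : ℤ)) w = if w ∈ T then 1 else 0 := fun w => by
    rw [Finset.sum_apply']
    simp [Finsupp.single_apply]
  have hdeg' : c ≤ Divisor.degree D' := by
    rw [hD', map_sub, map_sum]
    simp only [Divisor.degree_single, hF.deg_eq_one]
    simp
    omega
  haveI := infinite_places hF
  obtain ⟨v₀, hv₀⟩ := (S ∪ T).finite_toSet.infinite_compl.nonempty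
  rw [Set.mem_compl_iff, Finset.mem_coe, Finset.mem_union, not_or] at hv₀
  set S' := insert v₀ S
  obtain ⟨r₁, hr₁, hr₁0, hr₁e⟩ := hc D' hdeg' S'
  have hSD : ∀ v ∈ S', v ∉ T := fun v hv => by
    rcases Finset.mem_insert.1 hv with rfl | hv
    · exact hv₀.2
    · exact Finset.disjoint_left.1 hST hv
  -- the bad scalars
  have hbad : ∀ v ∈ S', {t : k | AtLeast v (-D v + 1) (e + algebraMap k F t * r₁)}.Subsingleton := by
    intro v hv t ht t' ht'
    by_contra hne
    have h1 := (AtLeast.sub ht ht').smul (t - t')⁻¹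
    rw [add_sub_add_left_eq_sub, ← sub_mul, ← map_sub, ← mul_assoc, ← map_mul,
      inv_mul_cancel₀ (sub_ne_zero.2 hne), map_one, one_mul, atLeast_iff hr₁0, hr₁e v hv,
      hD', Finsupp.sub_apply, hsum, if_neg (hSD v hv)] at h1
    omega
  have hfin : (⋃ v ∈ S', {t : k | AtLeast v (-D v + 1) (e + algebraMap k F t * r₁)}).Finite :=
    S'.finite_toSet.biUnion fun v hv => (hbad v hv).finite
  obtain ⟨t, ht⟩ := hfin.infinite_compl.nonempty
  simp only [Set.mem_compl_iff, Set.mem_iUnion, not_exists, Set.mem_ofPred_eq] at ht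
  set r := e + algebraMap k F t * r₁
  have hr0 : r ≠ 0 := fun h0 => ht v₀ (Finset.mem_insert_self _ _) (Or.inl h0)
  have hmem : r ∈ riemannRochSpace D := by
    refine add_mem he ?_
    rw [← Algebra.smul_def]
    refine Submodule.smul_mem _ _ (riemannRochSpace_mono ?_ hr₁)
    exact sub_le_self _ (Finset.sum_nonneg fun v _ => Finsupp.single_nonneg.2 zero_le_one)
  refine ⟨r, hmem, hr0, fun v hv => ?_, fun v hv => ?_⟩
  · have h1 := (atLeast_iff hr0).1 (FA.Curve.mem_riemannRochSpace.1 hmem v)
    have h2 := ht v (Finset.mem_insert_of_mem hv)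
    rw [atLeast_iff hr0] at h2
    omega
  · have h1 := FA.Curve.mem_riemannRochSpace.1 hr₁ v
    rw [hD', Finsupp.sub_apply, hsum, if_pos hv, hT v hv] at h1
    have h2 := (he1 v hv).add (hasValue_zero_iff.2 ((h1.mono (by norm_num)).smul t))
    rwa [add_zero] at h2

/-- Functions regular where `x` is finite lie in some `L(m (x)_∞)`. -/
theorem exists_mem_nB {x : F} (hx : Transcendental k x) {u : F} (hu : u ∈ regSub (K := k) x) :
    ∃ m₀ : ℕ, ∀ m, m₀ ≤ m → u ∈ riemannRochSpace (m • poleDiv hF x) := by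
  classical
  refine ⟨∑ P ∈ (poleDiv hF x).support, (P.ord u).natAbs, fun m hm => ?_⟩
  rw [mem_riemannRoch_nB hF hx]
  refine ⟨hu, fun P hP => (atLeast_ord u).mono ?_⟩
  have hmem : P ∈ (poleDiv hF x).support :=
    Finsupp.mem_support_iff.2 (by rw [poleDiv_apply]; omega)
  have hPB := Finset.single_le_sum (f := fun P : Place k F => (P.ord u).natAbs)
    (fun _ _ => Nat.zero_le _) hmem
  have : (m : ℤ) * P.ord x ≤ (m : ℤ) * (-1) :=
    mul_le_mul_of_nonneg_left (by omega) (Int.natCast_nonneg _)
  omega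

theorem nsmul_poleDiv_of_nonneg {x : F} {P : Place k F}
    (hP : 0 ≤ P.ord x) (m : ℕ) : (m • poleDiv hF x) P = 0 := by
  rw [Finsupp.smul_apply, poleDiv_apply, max_eq_left (by omega), smul_zero]

theorem nsmul_poleDiv_of_neg {x : F} {P : Place k F}
    (hP : P.ord x ≤ 0) (m : ℕ) : (m • poleDiv hF x) P = -((m : ℤ) * P.ord x) := by
  rw [Finsupp.smul_apply, poleDiv_apply, max_eq_right (by omega), nsmul_eq_mul]
  ring

theorem le_degree_nB {x : F} (hx : Transcendental k x) (m : ℕ) :
    (m : ℤ) ≤ Divisor.degree (m • poleDiv hF x) := by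
  rw [map_nsmul, degree_poleDiv hF hx, nsmul_eq_mul]
  have := finrank_adjoin_pos hF hx
  nlinarith

end FA.ModField.MultiRed
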