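import Fermat.Agent.ModField.Semistable.Joint.Zone

/-!
# Centres of places for a chart of several reductions

A place in a residue disc of `x` has a point on one of the components at which all integral
regular functions take the reduced values.
-/

set_option autoImplicit false
set_option linter.style.haveILetI false
set_option linter.unusedSectionVars false

noncomputable section

namespace FA.ModField.MultiRed

open AlgebraicCurve FA.Curve FA.CurveRed FA.CurveRed.ConstRed Polynomial IntermediateField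

variable {K F k : Type*} [Field K] [IsAlgClosed K] [Field F] [Algebra K F] [Field k]
  [IsAlgClosed k] {ι : Type*} [Fintype ι] [Nonempty ι] [DecidableEq ι] {Fk : ι → Type*}
  [∀ i, Field (Fk i)] [∀ i, Algebra k (Fk i)] {A : ValuationSubring K}
  {J : MultiRed K F k Fk A} {x : F} {xb : ∀ i, Fk i}
  (hF : IsFunctionField K F) (hk : ∀ i, IsFunctionField k (Fk i))

/-- `Q` is a centre of `P`. -/
def IsCtr (J : MultiRed K F k Fk A) (x : F) (P : Place K F) (Q : Σ i, Place k (Fk i)) : Prop :=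
  ∀ (u : F) (ub : ∀ i, Fk i), u ∈ regSub (K := K) x → J.Red u ub → ∀ b : K, HasValue P u b →
    ∃ hb : b ∈ A, HasValue Q.2 (ub Q.1) (J.π ⟨b, hb⟩)

theorem const_mem_regSub (x : F) (a : K) : algebraMap K F a ∈ regSub (K := K) x :=
  (regSub (K := K) x).algebraMap_mem a

include hF hk

omit hF in
theorem MChart.exists_over (h : J.MChart x xb) (i : ι) (a : k) :
    ∃ Q : Place k (Fk i), HasValue Q (xb i) a := by
  obtain ⟨Q, hQ⟩ := exists_ord_eq_one_zero (hk i) a (h.trans i)
  exact ⟨Q, (hasValue_iff_pos (hk i) (h.trans i)).2 hQ⟩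

/-- A zero of a regular integral function lies over a zero of a reduction. -/
theorem MChart.exists_red_zero (h : J.MChart x xb) {P : Place K F} {c : K} (hcA : c ∈ A)
    (hc : HasValue P x c) {u : F} (hu : u ∈ regSub (K := K) x) {ub : ∀ i, Fk i} (hub : J.Red u ub)
    (hP : AtLeast P 1 u) :
    ∃ i, ∃ Q : Place k (Fk i), HasValue Q (xb i) (J.π ⟨c, hcA⟩) ∧ AtLeast Q 1 (ub i) := by
  classical
  by_cases h0 : ∃ i, ub i = 0
  · obtain ⟨i, hi⟩ := h0
    obtain ⟨Q, hQ⟩ := h.exists_over hk i (J.π ⟨c, hcA⟩)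
    exact ⟨i, Q, hQ, Or.inl hi⟩
  push Not at h0
  have hu0 : u ≠ 0 := hub.ne_zero (h0 (Classical.arbitrary ι))
  set a := J.π ⟨c, hcA⟩
  have hz := h.zone hF hk (f := u) (c := fun _ => 1) (g := fun _ => u) (fun i => by simp) hub hu0
    h0 a
  by_contra hno
  push Not at hno
  have hmem : J.InDisc x P a := ⟨c, hcA, rfl, hc⟩
  have hnn : Finsupp.single P (1 : ℤ) ≤ (divOf hF u).filter fun P => J.InDisc x P a := by
    refine Finsupp.le_def.2 fun P' => ?_
    rw [Finsupp.filter_apply]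
    rcases eq_or_ne P' P with rfl | hne
    · rw [Finsupp.single_eq_same, if_pos hmem, divOf_apply]
      exact (atLeast_iff hu0).1 hP
    · rw [Finsupp.single_eq_of_ne hne]
      split_ifs with hd
      · obtain ⟨b, _, _, hb⟩ := hd
        rw [divOf_apply]
        exact (atLeast_iff hu0).1 (hu P' ((atLeast_iff (x_ne_zero hF h.transX)).1 hb.atLeast))
      · rfl
  have h1 := degree_mono hF hnn
  rw [Divisor.degree_single, hF.deg_eq_one, hz] at h1
  have h2 : ∀ i, Divisor.degree ((divOf (hk i) (ub i)).filter fun Q => HasValue Q (xb i) a) ≤ 0 := by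
    intro i
    have hle : ((divOf (hk i) (ub i)).filter fun Q => HasValue Q (xb i) a) ≤ 0 := by
      refine Finsupp.le_def.2 fun Q => ?_
      rw [Finsupp.filter_apply, Finsupp.coe_zero, Pi.zero_apply]
      split_ifs with hQ
      · have := hno i Q hQ
        rw [atLeast_iff (h0 i)] at this
        rw [divOf_apply]
        omega
      · rfl
    simpa using degree_mono (hk i) hle
  have h3 := Finset.sum_nonpos fun i (_ : i ∈ (Finset.univ : Finset ι)) => h2 i
  push_cast at h1
  omega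

/-- Values of integral regular functions are integral, and small if the reductions vanish. -/
theorem MChart.value_mem (h : J.MChart x xb) {P : Place K F} {c : K} (hcA : c ∈ A)
    (hc : HasValue P x c) {u : F} {ub : ∀ i, Fk i} (hu : u ∈ regSub (K := K) x)
    (hub : J.Red u ub) {b : K} (hb : HasValue P u b) :
    ∃ hbA : b ∈ A, ub = 0 → J.π ⟨b, hbA⟩ = 0 := by
  have key : ∀ (hbi : b⁻¹ ∈ A), b ≠ 0 →
      (∀ i, algebraMap k (Fk i) (J.π ⟨b⁻¹, hbi⟩) * ub i = 0) → False := by
    intro hbi hb0 h0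
    have hg : J.Red (1 - algebraMap K F b⁻¹ * u) 1 := fun i => by
      have h1 := (ConstRed.red_one (C := J.C i)).sub ((J.red_const_at i ⟨b⁻¹, hbi⟩).mul (hub i))
      rwa [h0 i, sub_zero] at h1
    obtain ⟨i, Q, -, hQ⟩ := h.exists_red_zero hF hk hcA hc
      (sub_mem (one_mem _) (mul_mem (const_mem_regSub x b⁻¹) hu)) hg (by
        have h1 := (hb.smul b⁻¹).neg
        rwa [inv_mul_cancel₀ hb0, map_one, neg_sub] at h1)
    rw [Pi.one_apply, atLeast_iff one_ne_zero, Place.ord_one] at hQ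
    omega
  by_cases hbA : b ∈ A
  · refine ⟨hbA, fun hub0 => ?_⟩
    by_contra hne
    have hb0 : b ≠ 0 := fun h0 => hne (by
      rw [show (⟨b, hbA⟩ : A) = 0 from Subtype.ext h0, map_zero])
    have hbi : b⁻¹ ∈ A := by
      rw [J.π_eq_zero, not_lt] at hne
      rw [← A.valuation_le_one_iff, map_inv₀]
      exact inv_le_one_of_one_le₀ hne
    exact key hbi hb0 fun i => by rw [hub0, Pi.zero_apply, mul_zero]
  · exfalso
    have hbi : b⁻¹ ∈ A := (A.mem_or_inv_mem b).resolve_left hbA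
    have hb0 : b ≠ 0 := fun h0 => hbA (h0 ▸ zero_mem A)
    refine key hbi hb0 fun i => ?_
    have : J.π ⟨b⁻¹, hbi⟩ = 0 := by
      rw [J.π_eq_zero]
      show A.valuation b⁻¹ < 1
      rw [map_inv₀]
      exact inv_lt_one_of_one_lt₀ (lt_of_not_ge fun h' => hbA ((A.valuation_le_one_iff b).1 h'))
    rw [this, map_zero, zero_mul]

/-- Reductions of regular integral functions are regular. -/
theorem MChart.red_mem_regSub (h : J.MChart x xb) {u : F} {ub : ∀ i, Fk i}
    (hu : u ∈ regSub (K := K) x) (hub : J.Red u ub) (i : ι) :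
    ub i ∈ regSub (K := k) (xb i) := by
  classical
  intro Q₀ hQ₀
  by_contra hbad
  obtain ⟨a, ha⟩ := exists_hasValue (hk i) (Or.inr hQ₀ : AtLeast Q₀ 0 (xb i))
  have hfin : (⋃ j, {v : k | ∃ Q : Place k (Fk j),
      HasValue Q (xb j) a ∧ HasValue Q (ub j) v}).Finite := by
    refine Set.finite_iUnion fun j => ?_
    have hS : {Q : Place k (Fk j) | HasValue Q (xb j) a}.Finite :=
      (finite_zeros (hk j) (xb j - algebraMap k (Fk j) a)).subset fun Q hQ =>
        (hasValue_iff_pos (hk j) (h.trans j)).1 hQ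
    haveI := hS.to_subtype
    let val : {Q : Place k (Fk j) | HasValue Q (xb j) a} → k := fun Q =>
      if hv : ∃ v, HasValue Q.1 (ub j) v then hv.choose else 0
    refine (Set.finite_range val).subset ?_
    rintro v ⟨Q, hQa, hQv⟩
    refine ⟨⟨Q, hQa⟩, ?_⟩
    simp only [val, dif_pos (⟨v, hQv⟩ : ∃ v, HasValue Q (ub j) v)]
    exact (Exists.choose_spec (⟨v, hQv⟩ : ∃ v, HasValue Q (ub j) v)).unique hQv
  obtain ⟨cb, hcb⟩ := hfin.infinite_compl.nonempty
  simp only [Set.mem_compl_iff, Set.mem_iUnion, Set.mem_ofPred_eq, not_exists, not_and] at hcb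
  obtain ⟨⟨cc, hccA⟩, rfl⟩ := J.π_surjective cb
  set c' := J.π ⟨cc, hccA⟩
  set w : ∀ j, Fk j := fun j => ub j - algebraMap k (Fk j) c'
  have hw : J.Red (u - algebraMap K F cc) w := hub.sub (J.red_const ⟨cc, hccA⟩)
  have hw0 : ∀ j, w j ≠ 0 := fun j h0 => by
    obtain ⟨Q, hQ⟩ := h.exists_over hk j a
    exact hcb j Q hQ (by
      rw [HasValue, show ub j - algebraMap k (Fk j) c' = 0 from h0]
      exact atLeast_zero)
  have hu0 : u - algebraMap K F cc ≠ 0 := hw.ne_zero (hw0 i)
  have hz := h.zone hF hk (f := u - algebraMap K F cc) (c := fun _ => 1)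
    (g := fun _ => u - algebraMap K F cc) (fun i => by simp) hw hu0 hw0 a
  have hL : 0 ≤ Divisor.degree
      ((divOf hF (u - algebraMap K F cc)).filter fun P => J.InDisc x P a) := by
    refine degree_nonneg hF (Finsupp.le_def.2 fun P => ?_)
    rw [Finsupp.filter_apply, Finsupp.coe_zero, Pi.zero_apply]
    split_ifs with hd
    · obtain ⟨b, _, _, hb⟩ := hd
      rw [divOf_apply]
      exact (atLeast_iff hu0).1 ((sub_mem hu (const_mem_regSub x cc)) P
        ((atLeast_iff (x_ne_zero hF h.transX)).1 hb.atLeast))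
    · rfl
  have hR : ∀ j, ((divOf (hk j) (w j)).filter fun Q => HasValue Q (xb j) a) ≤ 0 := by
    intro j
    refine Finsupp.le_def.2 fun Q => ?_
    rw [Finsupp.filter_apply, Finsupp.coe_zero, Pi.zero_apply]
    split_ifs with hQ
    · rw [divOf_apply]
      by_contra hpos
      exact hcb j Q hQ (Or.inr (show 1 ≤ Q.ord (w j) by omega))
    · rfl
  have hRi : (divOf (hk i) (w i)).filter (fun Q => HasValue Q (xb i) a) ≤
      -Finsupp.single Q₀ (1 : ℤ) := by
    refine Finsupp.le_def.2 fun Q => ?_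
    rw [Finsupp.neg_apply]
    rcases eq_or_ne Q Q₀ with rfl | hne
    · rw [Finsupp.filter_apply, if_pos ha, Finsupp.single_eq_same, divOf_apply]
      by_contra hge
      refine hbad ?_
      have h1 : AtLeast Q 0 (w i) := Or.inr (by omega)
      have h2 := h1.add (atLeast_algebraMap c')
      simpa [w] using h2
    · rw [Finsupp.single_eq_of_ne hne, neg_zero]
      exact Finsupp.le_def.1 (hR i) Q
  rw [hz, ← Finset.add_sum_erase _ _ (Finset.mem_univ i)] at hL
  have h1 := degree_mono (hk i) hRi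
  rw [map_neg, Divisor.degree_single, (hk i).deg_eq_one] at h1
  have h2 : ∑ j ∈ Finset.univ.erase i,
      Divisor.degree ((divOf (hk j) (w j)).filter fun Q => HasValue Q (xb j) a) ≤ 0 :=
    Finset.sum_nonpos fun j _ => by simpa using degree_mono (hk j) (hR j)
  push_cast at h1
  omega

/-- Reductions respect Riemann-Roch spaces of the pole divisor. -/
theorem MChart.red_mem_nB (h : J.MChart x xb) {m : ℕ} {u : F} {ub : ∀ i, Fk i}
    (hu : u ∈ riemannRochSpace (m • poleDiv hF x)) (hub : J.Red u ub) (i : ι) :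
    ub i ∈ riemannRochSpace (m • poleDiv (hk i) (xb i)) := by
  have hx := h.transX
  have hx0 : x ≠ 0 := x_ne_zero hF hx
  rw [mem_riemannRoch_nB hF hx] at hu
  rw [mem_riemannRoch_nB (hk i) (h.trans i)]
  refine ⟨h.red_mem_regSub hF hk hu.1 hub i, fun Q hQ => ?_⟩
  have hreg : u * x⁻¹ ^ m ∈ regSub (K := K) x⁻¹ := by
    intro P hP
    rw [P.ord_inv] at hP
    rcases eq_or_ne u 0 with rfl | hu0
    · rw [zero_mul]; exact atLeast_zero
    refine Or.inr ?_
    rw [P.ord_mul hu0 (pow_ne_zero _ (inv_ne_zero hx0)), place_ord_pow, P.ord_inv]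
    rcases (le_of_not_gt fun h' => absurd hP (by omega) : P.ord x ≤ 0).lt_or_eq with hlt | heq
    · have := (atLeast_iff hu0).1 (hu.2 P hlt)
      linarith
    · have := (atLeast_iff hu0).1 (hu.1 P heq.ge)
      rw [heq]
      simpa using this
  have hxinv : J.Red x⁻¹ (fun i => (xb i)⁻¹) := h.inv.red_x
  have h1 := h.inv.red_mem_regSub hF hk hreg (hub.mul (hxinv.pow m)) i Q (by
    rw [Q.ord_inv]; omega)
  simp only [Pi.mul_apply, Pi.pow_apply] at h1
  have h2 := h1.mul (atLeast_ord (v := Q) (xb i ^ m))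
  rw [zero_add, mul_assoc, ← mul_pow, inv_mul_cancel₀ (h.xb_ne_zero i), one_pow, mul_one,
    place_ord_pow] at h2
  exact h2

/-- Centres exist. -/
theorem MChart.exists_center (h : J.MChart x xb) {P : Place K F} {c : K} (hcA : c ∈ A)
    (hc : HasValue P x c) :
    ∃ Q : Σ i, Place k (Fk i), HasValue Q.2 (xb Q.1) (J.π ⟨c, hcA⟩) ∧ J.IsCtr x P Q := by
  classical
  set a := J.π ⟨c, hcA⟩
  have hx0 : x ≠ 0 := x_ne_zero hF h.transX
  have hxP : 0 ≤ P.ord x := (atLeast_iff hx0).1 hc.atLeast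
  have hfinS : {Q : Σ i, Place k (Fk i) | HasValue Q.2 (xb Q.1) a}.Finite := by
    refine (Set.finite_iUnion fun j : ι => ((finite_zeros (hk j)
      (xb j - algebraMap k (Fk j) a)).image fun Q => (⟨j, Q⟩ : Σ i, Place k (Fk i)))).subset ?_
    rintro ⟨j, Q⟩ hQ
    exact Set.mem_iUnion.2 ⟨j, Q, (hasValue_iff_pos (hk j) (h.trans j)).1 hQ, rfl⟩
  set S := hfinS.toFinset
  by_contra hno
  push Not at hno
  have hfac : ∀ Q ∈ S, ∃ (w : F) (wb : ∀ i, Fk i) (b : K) (hb : b ∈ A), w ∈ regSub (K := K) x ∧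
      J.Red w wb ∧ HasValue P w b ∧ AtLeast Q.2 1 (wb Q.1) ∧ J.π ⟨b, hb⟩ ≠ 0 := by
    intro Q hQ
    have hQ' : HasValue Q.2 (xb Q.1) a := hfinS.mem_toFinset.1 hQ
    have h1 := hno Q hQ'
    simp only [IsCtr, not_forall, not_exists] at h1
    obtain ⟨u, ub, hu, hub, b, hb, hbad⟩ := h1
    obtain ⟨hbA, -⟩ := h.value_mem hF hk hcA hc hu hub hb
    obtain ⟨d, hd⟩ := exists_hasValue (hk Q.1) (h.red_mem_regSub hF hk hu hub Q.1 Q.2
      ((atLeast_iff (h.xb_ne_zero Q.1)).1 hQ'.atLeast))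
    obtain ⟨⟨e, heA⟩, he⟩ := J.π_surjective d
    refine ⟨u - algebraMap K F e, _, b - e, sub_mem hbA heA, sub_mem hu (const_mem_regSub x e),
      hub.sub (J.red_const ⟨e, heA⟩), hb.sub (hasValue_algebraMap P _), ?_, fun h0 => ?_⟩
    · rw [Pi.sub_apply, he]; exact hd
    · rw [show (⟨b - e, sub_mem hbA heA⟩ : A) = ⟨b, hbA⟩ - ⟨e, heA⟩ from rfl, map_sub,
        sub_eq_zero, he] at h0
      exact hbad hbA (h0 ▸ hd)
  choose! w wb b hbA hw hwb hbv hQ hπb using hfac
  have hprod : ∀ T : Finset (Σ i, Place k (Fk i)), T ⊆ S →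
      ∃ hT : (∏ Q ∈ T, b Q) ∈ A, HasValue P (∏ Q ∈ T, w Q) (∏ Q ∈ T, b Q) ∧
        J.π ⟨_, hT⟩ ≠ 0 := by
    intro T
    induction T using Finset.induction with
    | empty =>
      intro _
      refine ⟨by simp, by simpa using hasValue_algebraMap P (1 : K), ?_⟩
      simp only [Finset.prod_empty]
      rw [show (⟨(1 : K), _⟩ : A) = 1 from rfl, map_one]
      exact one_ne_zero
    | @insert q T ha ih =>
      intro hsub
      rw [Finset.insert_subset_iff] at hsub
      obtain ⟨hT, hTv, hTπ⟩ := ih hsub.2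
      have hm : (∏ Q ∈ insert q T, b Q) ∈ A := by
        rw [Finset.prod_insert ha]; exact mul_mem (hbA q hsub.1) hT
      refine ⟨hm, ?_, ?_⟩
      · rw [Finset.prod_insert ha, Finset.prod_insert ha]; exact (hbv q hsub.1).mul hTv
      · rw [show (⟨_, hm⟩ : A) = ⟨b q, hbA q hsub.1⟩ * ⟨_, hT⟩ from
          Subtype.ext (Finset.prod_insert ha), map_mul]
        exact mul_ne_zero (hπb q hsub.1) hTπ
  obtain ⟨hT, hTv, hTπ⟩ := hprod S (Finset.Subset.refl S)
  obtain ⟨i, Q, hQa, hQ0⟩ := h.exists_red_zero hF hk hcA hc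
    (sub_mem (prod_mem fun q hq => hw q hq) (const_mem_regSub x _))
    ((red_prod fun q hq => hwb q hq).sub (J.red_const ⟨_, hT⟩))
    (hasValue_zero_iff.1 (by
      have := hTv.sub (hasValue_algebraMap P (∏ Q ∈ S, b Q))
      rwa [sub_self] at this))
  have hmem : (⟨i, Q⟩ : Σ i, Place k (Fk i)) ∈ S := hfinS.mem_toFinset.2 hQa
  have hQfin : 0 ≤ Q.ord (xb i) := (atLeast_iff (h.xb_ne_zero i)).1 hQa.atLeast
  have hzero : AtLeast Q 1 (∏ q ∈ S, wb q i) := by
    rw [← Finset.mul_prod_erase _ _ hmem]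
    have h2 : AtLeast Q 0 (∏ q ∈ S.erase ⟨i, Q⟩, wb q i) :=
      (prod_mem (S := regSub (K := k) (xb i)) fun q hq => h.red_mem_regSub hF hk
        (hw q (Finset.mem_of_mem_erase hq)) (hwb q (Finset.mem_of_mem_erase hq)) i) Q hQfin
    exact (hQ _ hmem).mul h2
  rw [Pi.sub_apply, Finset.prod_apply] at hQ0
  have h3 := hzero.sub hQ0
  rw [sub_sub_cancel, atLeast_iff ((_root_.map_ne_zero _).2 hTπ), place_ord_algebraMap] at h3
  omega

end FA.ModField.MultiRed
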