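import Fermat.Agent.ModField.Semistable.Joint.Center
import Fermat.Agent.ModField.Semistable.Joint.Select
import Fermat.Agent.ModField.Semistable.Glued

/-!
# The glued coordinate ring of the special fibre

Under the hypotheses `FibreHyp` the reductions of integral regular functions are exactly the
tuples of regular functions with equal values at the branches of each singular point.
-/

set_option autoImplicit false
set_option linter.style.haveILetI false
set_option linter.unusedSectionVars false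

noncomputable section

namespace FA.ModField

open AlgebraicCurve FA.Curve FA.CurveRed FA.CurveRed.ConstRed Polynomial IntermediateField

variable {K F k : Type*} [Field K] [IsAlgClosed K] [Field F] [Algebra K F] [Field k]
  [IsAlgClosed k] {ι : Type*} [Fintype ι] [Nonempty ι] [DecidableEq ι] {Fk : ι → Type*}
  [∀ i, Field (Fk i)] [∀ i, Algebra k (Fk i)] {A : ValuationSubring K}

/-- What is needed to glue the components along finitely many finite points. -/
structure FibreHyp (J : MultiRed K F k Fk A) (hF : IsFunctionField K F)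
    (hk : ∀ i, IsFunctionField k (Fk i)) (x : F) (xb : ∀ i, Fk i) : Prop where
  chart : J.MChart x xb
  /-- integral regular functions surject on every component -/
  proj : ∀ i, ∀ r ∈ regSub (K := k) (xb i),
    ∃ u ∈ regSub (K := K) x, ∃ ub, J.Red u ub ∧ ub i = r
  /-- at every finite point some function supported on that component has at most a simple zero -/
  axes : ∀ i (Q : Place k (Fk i)), 0 ≤ Q.ord (xb i) →
    ∃ u ∈ regSub (K := K) x, ∃ ub, J.Red u ub ∧ (∀ j, j ≠ i → ub j = 0) ∧ ¬ AtLeast Q 2 (ub i)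
  /-- top degree parts lift independently on the components -/
  top : ∃ m₀ : ℕ, ∀ m, m₀ ≤ m → ∀ i, ∀ r ∈ riemannRochSpace (m • poleDiv (hk i) (xb i)),
    ∃ u ∈ riemannRochSpace (m • poleDiv hF x), ∃ ub, J.Red u ub ∧
      ub i - r ∈ riemannRochSpace ((m - 1) • poleDiv (hk i) (xb i)) ∧
      ∀ j, j ≠ i → ub j ∈ riemannRochSpace ((m - 1) • poleDiv (hk j) (xb j))

namespace MultiRed

variable (J : MultiRed K F k Fk A) (x : F) (xb : ∀ i, Fk i)

/-- Reductions of integral regular functions. -/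
def glued : Submodule k (∀ i, Fk i) where
  carrier := {ub | ∃ u ∈ regSub (K := K) x, J.Red u ub}
  add_mem' := fun ⟨u, hu, h⟩ ⟨v, hv, h'⟩ => ⟨u + v, add_mem hu hv, h.add h'⟩
  zero_mem' := ⟨0, zero_mem _, J.red_zero⟩
  smul_mem' := fun a _ ⟨u, hu, h⟩ => by
    obtain ⟨b, rfl⟩ := J.π_surjective a
    exact ⟨_, mul_mem (const_mem_regSub x (b : K)) hu, h.smul b⟩

theorem mul_mem_glued {ub vb : ∀ i, Fk i} (h : ub ∈ J.glued x) (h' : vb ∈ J.glued x) :
    ub * vb ∈ J.glued x := by
  obtain ⟨u, hu, hu'⟩ := h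
  obtain ⟨v, hv, hv'⟩ := h'
  exact ⟨u * v, mul_mem hu hv, hu'.mul hv'⟩

theorem one_mem_glued : (1 : ∀ i, Fk i) ∈ J.glued x := ⟨1, one_mem _, J.red_one⟩

theorem const_mem_glued (a : k) : (fun i => algebraMap k (Fk i) a) ∈ J.glued x := by
  obtain ⟨b, rfl⟩ := J.π_surjective a
  exact ⟨_, const_mem_regSub x (b : K), J.red_const b⟩

theorem prod_mem_glued {α : Type*} {s : Finset α} {f : α → ∀ i, Fk i}
    (h : ∀ a ∈ s, f a ∈ J.glued x) : (∏ a ∈ s, f a) ∈ J.glued x :=
  Finset.prod_induction f (· ∈ J.glued x) (fun _ _ => J.mul_mem_glued x) (J.one_mem_glued x) h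

/-- The finite points. -/
def FinPt (q : Σ i, Place k (Fk i)) : Prop := 0 ≤ q.2.ord (xb q.1)

/-- Two points at which all glued functions have the same values. -/
def SameVal (q q' : Σ i, Place k (Fk i)) : Prop :=
  ∀ ub ∈ J.glued x, ∀ v, HasValue q.2 (ub q.1) v → HasValue q'.2 (ub q'.1) v

/-- The branches at the singular points. -/
def IsBranch (q : Σ i, Place k (Fk i)) : Prop :=
  FinPt xb q ∧ ∃ q', q' ≠ q ∧ FinPt xb q' ∧ J.SameVal x q q'

end MultiRed

namespace FibreHyp

variable {J : MultiRed K F k Fk A} {hF : IsFunctionField K F}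
  {hk : ∀ i, IsFunctionField k (Fk i)} {x : F} {xb : ∀ i, Fk i} (H : FibreHyp J hF hk x xb)

include H

theorem reg_of_glued {ub : ∀ i, Fk i} (h : ub ∈ J.glued x) (i : ι) :
    ub i ∈ regSub (K := k) (xb i) := by
  obtain ⟨u, hu, hub⟩ := h
  exact H.chart.red_mem_regSub hF hk hu hub i

theorem exists_val {ub : ∀ i, Fk i} (h : ub ∈ J.glued x) {q : Σ i, Place k (Fk i)}
    (hq : MultiRed.FinPt xb q) : ∃ v, HasValue q.2 (ub q.1) v :=
  exists_hasValue (hk q.1) (H.reg_of_glued h q.1 q.2 hq)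

theorem sameVal_symm {q q' : Σ i, Place k (Fk i)} (hq : MultiRed.FinPt xb q)
    (h : J.SameVal x q q') : J.SameVal x q' q := fun ub hub v hv => by
  obtain ⟨w, hw⟩ := H.exists_val hub hq
  rwa [hv.unique (h ub hub w hw)]

omit H in
theorem sameVal_trans {q q' q'' : Σ i, Place k (Fk i)} (h : J.SameVal x q q')
    (h' : J.SameVal x q' q'') : J.SameVal x q q'' :=
  fun ub hub v hv => h' ub hub v (h ub hub v hv)

/-- A glued tuple separating two points with different values. -/
theorem exists_separator {q q' : Σ i, Place k (Fk i)}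
    (hq' : MultiRed.FinPt xb q') (h : ¬ J.SameVal x q q') :
    ∃ ub ∈ J.glued x, HasValue q.2 (ub q.1) 1 ∧ HasValue q'.2 (ub q'.1) 0 := by
  simp only [MultiRed.SameVal, not_forall] at h
  obtain ⟨ub, hub, v, hv, hne⟩ := h
  obtain ⟨w, hw⟩ := H.exists_val hub hq'
  have hvw : v - w ≠ 0 := sub_ne_zero.2 fun e => hne (e ▸ hw)
  refine ⟨(v - w)⁻¹ • (ub - fun i => algebraMap k (Fk i) w),
    Submodule.smul_mem _ _ (sub_mem hub (J.const_mem_glued x w)), ?_, ?_⟩
  · rw [Pi.smul_apply, Algebra.smul_def, Pi.sub_apply]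
    have := (hv.sub (hasValue_algebraMap q.2 w)).smul (v - w)⁻¹
    rwa [inv_mul_cancel₀ hvw] at this
  · rw [Pi.smul_apply, Algebra.smul_def, Pi.sub_apply]
    have := (hw.sub (hasValue_algebraMap q'.2 w)).smul (v - w)⁻¹
    rwa [sub_self, mul_zero] at this

/-- A glued tuple with value `1` at `q` and `0` on a finite set. -/
theorem exists_indicator {q : Σ i, Place k (Fk i)} (Ω : Finset (Σ i, Place k (Fk i)))
    (hΩ : ∀ q' ∈ Ω, MultiRed.FinPt xb q' ∧ ¬ J.SameVal x q q') :
    ∃ ub ∈ J.glued x, HasValue q.2 (ub q.1) 1 ∧ ∀ q' ∈ Ω, HasValue q'.2 (ub q'.1) 0 := by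
  classical
  choose! s hs hs1 hs0 using fun q' hq' => H.exists_separator (hΩ q' hq').1 (hΩ q' hq').2
  refine ⟨∏ q' ∈ Ω, s q', J.prod_mem_glued x hs, ?_, fun q' hq' => ?_⟩
  · rw [Finset.prod_apply]
    clear hs0
    induction Ω using Finset.induction with
    | empty => simpa using hasValue_algebraMap q.2 (1 : k)
    | @insert a T ha ih =>
      rw [Finset.prod_insert ha]
      have := (hs1 a (Finset.mem_insert_self _ _)).mul (ih
        (fun b hb => hΩ b (Finset.mem_insert_of_mem hb))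
        (fun b hb => hs b (Finset.mem_insert_of_mem hb))
        (fun b hb => hs1 b (Finset.mem_insert_of_mem hb)))
      rwa [one_mul] at this
  · rw [Finset.prod_apply, ← Finset.mul_prod_erase _ _ hq', hasValue_zero_iff]
    have h1 := hasValue_zero_iff.1 (hs0 q' hq')
    have h2 : AtLeast q'.2 0 (∏ a ∈ Ω.erase q', s a q'.1) :=
      (prod_mem (S := regSub (K := k) (xb q'.1))
        fun a ha => H.reg_of_glued (hs a (Finset.mem_of_mem_erase ha)) q'.1) q'.2 (hΩ q' hq').1
    exact h1.mul h2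

theorem single_mul_mem {i : ι} {r s : Fk i} (hr : Pi.single i r ∈ J.glued x)
    (hs : s ∈ regSub (K := k) (xb i)) :
    Pi.single i (r * s) ∈ J.glued x := by
  obtain ⟨u, hu, ub, hub, he⟩ := H.proj i s hs
  have := J.mul_mem_glued x hr ⟨u, hu, hub⟩
  rwa [show (Pi.single i r : ∀ j, Fk j) * ub = Pi.single i (r * s) from funext fun j => by
    rcases eq_or_ne j i with rfl | hj
    · rw [Pi.mul_apply, Pi.single_eq_same, Pi.single_eq_same, he]
    · rw [Pi.mul_apply, Pi.single_eq_of_ne hj, Pi.single_eq_of_ne hj, zero_mul]] at this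

theorem exists_axis (i : ι) (Q : Place k (Fk i)) (hQ : 0 ≤ Q.ord (xb i)) :
    ∃ r : Fk i, Pi.single i r ∈ J.glued x ∧ ¬ AtLeast Q 2 r := by
  obtain ⟨u, hu, ub, hub, h0, h1⟩ := H.axes i Q hQ
  refine ⟨ub i, ?_, h1⟩
  rw [show (Pi.single i (ub i) : ∀ j, Fk j) = ub from funext fun j => by
    rcases eq_or_ne j i with rfl | hj
    · rw [Pi.single_eq_same]
    · rw [Pi.single_eq_of_ne hj, h0 j hj]]
  exact ⟨u, hu, hub⟩

/-- Points of one component are separated. -/
theorem not_sameVal_same {i : ι} {Q Q' : Place k (Fk i)} (hQ : 0 ≤ Q.ord (xb i))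
    (hne : Q ≠ Q') : ¬ J.SameVal x ⟨i, Q⟩ ⟨i, Q'⟩ := by
  classical
  intro h
  obtain ⟨c, hc⟩ := MultiRed.exists_exact (hk i)
  obtain ⟨m, hm⟩ : ∃ m : ℕ, c + 1 ≤ (m : ℤ) := ⟨(c + 1).toNat, Int.self_le_toNat _⟩
  by_cases hQ' : 0 ≤ Q'.ord (xb i)
  · obtain ⟨r, hr, hr0, hord⟩ := hc (m • poleDiv (hk i) (xb i) - Finsupp.single Q 1)
      (by
        rw [map_sub, Divisor.degree_single, (hk i).deg_eq_one]
        have := MultiRed.le_degree_nB (hk i) (H.chart.trans i) m
        omega) {Q, Q'}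
    have hreg : r ∈ regSub (K := k) (xb i) := ((mem_riemannRoch_nB (hk i) (H.chart.trans i)).1
      (riemannRochSpace_mono (sub_le_self _ (Finsupp.single_nonneg.2 zero_le_one)) hr)).1
    obtain ⟨u, hu, ub, hub, he⟩ := H.proj i r hreg
    have h1 := h ub ⟨u, hu, hub⟩ 0 (hasValue_zero_iff.2 (Or.inr (by
      show 1 ≤ Q.ord (ub i)
      rw [he, hord Q (by simp), Finsupp.sub_apply, MultiRed.nsmul_poleDiv_of_nonneg (hk i) hQ,
        Finsupp.single_eq_same]
      omega)))
    change HasValue Q' (ub i) 0 at h1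
    rw [hasValue_zero_iff, he, atLeast_iff hr0, hord Q' (by simp), Finsupp.sub_apply,
      MultiRed.nsmul_poleDiv_of_nonneg (hk i) hQ', Finsupp.single_eq_of_ne hne.symm] at h1
    omega
  · obtain ⟨u, hu, ub, hub, he⟩ := H.proj i (xb i) (self_mem_regSub _)
    obtain ⟨v, hv⟩ := exists_hasValue (hk i) (Or.inr hQ : AtLeast Q 0 (xb i))
    have h1 := h ub ⟨u, hu, hub⟩ v (show HasValue Q (ub i) v by rwa [he])
    change HasValue Q' (ub i) v at h1
    rw [he] at h1
    exact hQ' ((atLeast_iff (H.chart.xb_ne_zero i)).1 h1.atLeast)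

theorem branch_symm {q q' : Σ i, Place k (Fk i)} (hq : MultiRed.FinPt xb q) (hne : q' ≠ q)
    (hq' : MultiRed.FinPt xb q') (h : J.SameVal x q q') : J.IsBranch x xb q' :=
  ⟨hq', q, hne.symm, hq, H.sameVal_symm hq h⟩

/-- Functions supported on one component vanish at its branches. -/
theorem axis_vanish {i : ι} {r : Fk i} (hr : Pi.single i r ∈ J.glued x) {Q : Place k (Fk i)}
    (hQ : J.IsBranch x xb ⟨i, Q⟩) : AtLeast Q 1 r := by
  obtain ⟨hfin, ⟨j, Q'⟩, hne, hfin', hsame⟩ := hQ
  have hji : j ≠ i := by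
    rintro rfl
    exact H.not_sameVal_same hfin (fun e => hne (congrArg (Sigma.mk j) e.symm)) hsame
  have h1 := H.sameVal_symm hfin hsame _ hr 0 (by
    show HasValue Q' ((Pi.single i r : ∀ l, Fk l) j) 0
    rw [Pi.single_eq_of_ne hji, hasValue_zero_iff]
    exact atLeast_zero)
  change HasValue Q ((Pi.single i r : ∀ l, Fk l) i) 0 at h1
  rwa [Pi.single_eq_same, hasValue_zero_iff] at h1

omit H in
/-- The common zeros of the functions supported on the component `i`. -/
def zeroSet (J : MultiRed K F k Fk A) (x : F) (xb : ∀ i, Fk i) (i : ι) : Set (Place k (Fk i)) :=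
  {Q | 0 ≤ Q.ord (xb i) ∧ ∀ r : Fk i, Pi.single i r ∈ J.glued x → AtLeast Q 1 r}

theorem exists_axis_ne_zero (i : ι) : ∃ r : Fk i, Pi.single i r ∈ J.glued x ∧ r ≠ 0 := by
  obtain ⟨Q, hQ⟩ := H.chart.exists_over hk i 0
  obtain ⟨r, hr, hr2⟩ := H.exists_axis i Q ((atLeast_iff (H.chart.xb_ne_zero i)).1 hQ.atLeast)
  exact ⟨r, hr, fun h0 => hr2 (Or.inl h0)⟩

theorem zeroSet_finite (i : ι) : (zeroSet J x xb i).Finite := by
  obtain ⟨r, hr, hr0⟩ := H.exists_axis_ne_zero i
  exact (finite_zeros (hk i) r).subset fun Q hQ => by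
    have := (atLeast_iff hr0).1 (hQ.2 r hr)
    show 0 < Q.ord r
    omega

/-- Every regular function vanishing on the common zeros is supported on its component. -/
theorem axis_full {i : ι} {r : Fk i} (hr : r ∈ regSub (K := k) (xb i))
    (h0 : ∀ Q ∈ zeroSet J x xb i, AtLeast Q 1 r) : Pi.single i r ∈ J.glued x := by
  classical
  obtain ⟨k₀, hk₀, hk₀0⟩ := H.exists_axis_ne_zero i
  set Z := (finite_zeros (hk i) k₀).toFinset.filter fun Q => 0 ≤ Q.ord (xb i) with hZdef
  -- a second function with the smallest orders at the zeros of the first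
  let AX : Submodule k (Fk i) := (J.glued x).comap (LinearMap.single k Fk i)
  have hAX : ∀ s, s ∈ AX ↔ Pi.single i s ∈ J.glued x := fun s => Iff.rfl
  let bnd : Place k (Fk i) → ℤ := fun Q => if Q ∈ zeroSet J x xb i then 2 else 1
  let sub : Option Z → Submodule k AX := fun o => o.elim ⊥ fun Q =>
    { carrier := {s | AtLeast (Q : Place k (Fk i)) (bnd Q) (s : Fk i)}
      add_mem' := fun hs ht => AtLeast.add hs ht
      zero_mem' := atLeast_zero
      smul_mem' := fun a s hs => by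
        show AtLeast _ _ ((a • s : AX) : Fk i)
        rw [Submodule.coe_smul, Algebra.smul_def]
        exact AtLeast.smul hs a }
  have hsub : ∀ o, sub o ≠ ⊤ := by
    rintro (_ | ⟨Q, hQ⟩) htop
    · have : (⟨k₀, hk₀⟩ : AX) ∈ sub none := htop ▸ Submodule.mem_top
      change (⟨k₀, hk₀⟩ : AX) ∈ (⊥ : Submodule k AX) at this
      exact hk₀0 (congrArg Subtype.val ((Submodule.mem_bot k).1 this))
    · have hQfin : 0 ≤ Q.ord (xb i) := (Finset.mem_filter.1 hQ).2
      by_cases hT : Q ∈ zeroSet J x xb i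
      · obtain ⟨s, hs, hs2⟩ := H.exists_axis i Q hQfin
        have : (⟨s, hs⟩ : AX) ∈ sub (some ⟨Q, hQ⟩) := htop ▸ Submodule.mem_top
        change AtLeast Q (bnd Q) s at this
        exact hs2 (by rwa [show bnd Q = 2 from if_pos hT] at this)
      · have hT' := hT
        simp only [zeroSet, Set.mem_ofPred_eq, not_and, not_forall] at hT'
        obtain ⟨s, hs, hs1⟩ := hT' hQfin
        have : (⟨s, hs⟩ : AX) ∈ sub (some ⟨Q, hQ⟩) := htop ▸ Submodule.mem_top
        change AtLeast Q (bnd Q) s at this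
        exact hs1 (by rwa [show bnd Q = 1 from if_neg hT] at this)
  obtain ⟨⟨k₁, hk₁⟩, hk₁n⟩ := Submodule.exists_forall_notMem_of_forall_ne_top sub hsub
  have hk₁0 : k₁ ≠ 0 := fun h => hk₁n none (Subtype.ext h)
  have hreg : ∀ s : Fk i, Pi.single i s ∈ J.glued x → s ∈ regSub (K := k) (xb i) := fun s hs => by
    simpa using H.reg_of_glued hs i
  -- orders
  have hk₀nn : ∀ Q : Place k (Fk i), 0 ≤ Q.ord (xb i) → 0 ≤ Q.ord k₀ := fun Q hQ =>
    (atLeast_iff hk₀0).1 (hreg k₀ hk₀ Q hQ)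
  have hk₁nn : ∀ Q : Place k (Fk i), 0 ≤ Q.ord (xb i) → 0 ≤ Q.ord k₁ := fun Q hQ =>
    (atLeast_iff hk₁0).1 (hreg k₁ hk₁ Q hQ)
  have hmin : ∀ Q : Place k (Fk i), 0 ≤ Q.ord (xb i) →
      min (Q.ord k₀) (Q.ord k₁) = if Q ∈ zeroSet J x xb i then 1 else 0 := by
    intro Q hQ
    by_cases hZ : Q ∈ Z
    · have hn := hk₁n (some ⟨Q, hZ⟩)
      change ¬ AtLeast Q (bnd Q) k₁ at hn
      rw [atLeast_iff hk₁0] at hn
      have h0Q : 0 < Q.ord k₀ := (finite_zeros (hk i) k₀).mem_toFinset.1 (Finset.mem_filter.1 hZ).1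
      have h1 := hk₁nn Q hQ
      by_cases hT : Q ∈ zeroSet J x xb i
      · have h2 := (atLeast_iff hk₁0).1 (hT.2 k₁ hk₁)
        simp only [bnd, if_pos hT] at hn
        rw [if_pos hT]
        omega
      · simp only [bnd, if_neg hT] at hn
        rw [if_neg hT]
        omega
    · have h0Q : ¬ 0 < Q.ord k₀ := fun hpos => hZ (Finset.mem_filter.2
        ⟨(finite_zeros (hk i) k₀).mem_toFinset.2 hpos, hQ⟩)
      have hT : Q ∉ zeroSet J x xb i := fun hT => h0Q (by
        have := (atLeast_iff hk₀0).1 (hT.2 k₀ hk₀)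
        omega)
      rw [if_neg hT]
      have := hk₀nn Q hQ
      have := hk₁nn Q hQ
      omega
  -- the two spaces
  set B := poleDiv (hk i) (xb i)
  set Z₀ := (divOf (hk i) k₀).filter fun Q => 0 ≤ Q.ord (xb i) with hZ₀
  set Z₁ := (divOf (hk i) k₁).filter fun Q => 0 ≤ Q.ord (xb i) with hZ₁
  obtain ⟨c, hc⟩ := exists_threshold (hk i)
  obtain ⟨m₁, hm₁⟩ := MultiRed.exists_mem_nB (hk i) (H.chart.trans i) hr
  obtain ⟨M, hM⟩ : ∃ M : ℕ, M = m₁ + (c + Divisor.degree Z₀ + Divisor.degree Z₁).toNat :=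
    ⟨_, rfl⟩
  obtain ⟨U, hU⟩ : ∃ U, U = (M • B - Z₀) ⊔ (M • B - Z₁) := ⟨_, rfl⟩
  have hUr : r ∈ riemannRochSpace U := by
    rw [FA.Curve.mem_riemannRochSpace, hU]
    intro Q
    simp only [Finsupp.sup_apply, Finsupp.sub_apply, hZ₀, hZ₁, Finsupp.filter_apply]
    by_cases hQ : 0 ≤ Q.ord (xb i)
    · rw [if_pos hQ, if_pos hQ, MultiRed.nsmul_poleDiv_of_nonneg (hk i) hQ, divOf_apply,
        divOf_apply]
      have := hmin Q hQ
      by_cases hT : Q ∈ zeroSet J x xb i
      · rw [if_pos hT] at this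
        exact (h0 Q hT).mono (by omega)
      · rw [if_neg hT] at this
        exact (hr Q hQ).mono (by omega)
    · rw [if_neg hQ, if_neg hQ, sub_zero, max_self]
      exact FA.Curve.mem_riemannRochSpace.1 (hm₁ M (by omega)) Q
  have hdeg : c ≤ Divisor.degree ((M • B - Z₀) ⊓ (M • B - Z₁)) := by
    have hle : M • B - Z₀ - Z₁ ≤ (M • B - Z₀) ⊓ (M • B - Z₁) := by
      refine Finsupp.le_def.2 fun Q => ?_
      simp only [Finsupp.inf_apply, Finsupp.sub_apply, hZ₀, hZ₁, Finsupp.filter_apply, divOf_apply,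
        le_inf_iff]
      split_ifs with hQ
      · have := hk₀nn Q hQ
        have := hk₁nn Q hQ
        omega
      · omega
    refine le_trans ?_ (degree_mono (hk i) hle)
    rw [map_sub, map_sub]
    have h1 : (M : ℤ) ≤ Divisor.degree (M • B) := MultiRed.le_degree_nB (hk i) (H.chart.trans i) M
    have h2 : c + Divisor.degree Z₀ + Divisor.degree Z₁ ≤ (M : ℤ) := by rw [hM]; omega
    omega
  obtain ⟨a, ha, b, hb, hab⟩ := Submodule.mem_sup.1
    (ConstRed.sup_riemannRochSpace (hk i) hc (D₁ := M • B - Z₀) (D₂ := M • B - Z₁)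
      (fun Q => by rw [hU]; exact Finsupp.sup_apply _ _ _) (fun Q => Finsupp.inf_apply _ _ _)
      hdeg hUr)
  have hdiv : ∀ (s : Fk i), s ≠ 0 → ∀ t ∈ riemannRochSpace
      (M • B - (divOf (hk i) s).filter fun Q => 0 ≤ Q.ord (xb i)),
      s⁻¹ * t ∈ regSub (K := k) (xb i) := by
    intro s hs t ht Q hQ
    have h1 := FA.Curve.mem_riemannRochSpace.1 ht Q
    rw [Finsupp.sub_apply, Finsupp.filter_apply, if_pos hQ,
      MultiRed.nsmul_poleDiv_of_nonneg (hk i) hQ, zero_sub, neg_neg, divOf_apply] at h1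
    refine ((atLeast_ord (v := Q) s⁻¹).mul h1).mono (le_of_eq ?_)
    rw [Q.ord_inv]; omega
  have h1 := H.single_mul_mem hk₀ (hdiv k₀ hk₀0 a ha)
  have h2 := H.single_mul_mem hk₁ (hdiv k₁ hk₁0 b hb)
  rw [mul_inv_cancel_left₀ hk₀0] at h1
  rw [mul_inv_cancel_left₀ hk₁0] at h2
  rw [← hab, Pi.single_add]
  exact add_mem h1 h2

omit H in
open Classical in
/-- The common zeros on all components. -/
def zeroPts (H : FibreHyp J hF hk x xb) : Finset (Σ i, Place k (Fk i)) :=
  Finset.univ.sigma fun i => (H.zeroSet_finite i).toFinset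

/-- The common zeros are the branches. -/
theorem isBranch_iff (q : Σ i, Place k (Fk i)) :
    J.IsBranch x xb q ↔ q.2 ∈ zeroSet J x xb q.1 := by
  classical
  refine ⟨fun hq => ⟨hq.1, fun r hr => H.axis_vanish hr hq⟩, fun hq => ?_⟩
  by_contra hnb
  set Ω := (H.zeroPts).erase q
  have hΩ : ∀ q' ∈ Ω, MultiRed.FinPt xb q' ∧ ¬ J.SameVal x q q' := by
    intro q' hq'
    obtain ⟨hne, hmem⟩ := Finset.mem_erase.1 hq'
    rw [zeroPts, Finset.mem_sigma, Set.Finite.mem_toFinset] at hmem
    exact ⟨hmem.2.1, fun hs => hnb ⟨hq.1, q', hne, hmem.2.1, hs⟩⟩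
  obtain ⟨ub, hub, hub1, hub0⟩ := H.exists_indicator Ω hΩ
  obtain ⟨i, Q⟩ := q
  have hj : ∀ j, j ≠ i → Pi.single j (ub j) ∈ J.glued x := fun j hji =>
    H.axis_full (H.reg_of_glued hub j) fun Q' hQ' => hasValue_zero_iff.1
      (hub0 ⟨j, Q'⟩ (Finset.mem_erase.2 ⟨fun e => hji (congrArg Sigma.fst e), by
        rw [zeroPts, Finset.mem_sigma, Set.Finite.mem_toFinset]
        exact ⟨Finset.mem_univ _, hQ'⟩⟩))
  have hi : Pi.single i (ub i) ∈ J.glued x := by
    have h1 := sub_mem hub (sum_mem (t := Finset.univ.erase i) fun j hj' =>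
      hj j (Finset.ne_of_mem_erase hj'))
    have h2 : ub - ∑ j ∈ Finset.univ.erase i, (Pi.single j (ub j) : ∀ l, Fk l) =
        Pi.single i (ub i) := by
      conv_lhs => arg 1; rw [← Finset.univ_sum_single ub]
      rw [← Finset.add_sum_erase _ _ (Finset.mem_univ i), add_sub_cancel_right]
    rwa [h2] at h1
  have h1 : HasValue Q (ub i) 0 := hasValue_zero_iff.2 (hq.2 _ hi)
  exact one_ne_zero (hub1.unique h1)

theorem finite_branches : {q | J.IsBranch x xb q}.Finite :=
  (H.zeroPts).finite_toSet.subset fun q hq => by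
    classical
    rw [Finset.mem_coe, zeroPts, Finset.mem_sigma, Set.Finite.mem_toFinset]
    exact ⟨Finset.mem_univ _, (H.isBranch_iff q).1 hq⟩

/-- Tuples of regular functions with the same values along each class are glued. -/
theorem mem_glued_of_values {ub : ∀ i, Fk i} (hreg : ∀ i, ub i ∈ regSub (K := k) (xb i))
    (hv : ∀ q q' : Σ i, Place k (Fk i), J.IsBranch x xb q → J.IsBranch x xb q' →
      J.SameVal x q q' → ∀ v, HasValue q.2 (ub q.1) v → HasValue q'.2 (ub q'.1) v) :
    ub ∈ J.glued x := by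
  classical
  -- it is enough to find a glued tuple with the same values
  suffices key : ∀ S : Finset (Σ i, Place k (Fk i)), (∀ q ∈ S, J.IsBranch x xb q) →
      ∃ w ∈ J.glued x, ∀ q ∈ S, ∀ v, HasValue q.2 (ub q.1) v → HasValue q.2 (w q.1) v by
    obtain ⟨w, hw, hwv⟩ := key H.finite_branches.toFinset
      fun q hq => H.finite_branches.mem_toFinset.1 hq
    have h0 : ∀ j, Pi.single j ((ub - w) j) ∈ J.glued x := fun j =>
      H.axis_full (sub_mem (hreg j) (H.reg_of_glued hw j)) fun Q hQ => by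
        have hb : J.IsBranch x xb ⟨j, Q⟩ := (H.isBranch_iff _).2 hQ
        obtain ⟨v, hv'⟩ := exists_hasValue (hk j) (hreg j Q hQ.1)
        have := hv'.sub (hwv ⟨j, Q⟩ (H.finite_branches.mem_toFinset.2 hb) v hv')
        rwa [sub_self, hasValue_zero_iff] at this
    have h1 := add_mem hw (sum_mem (t := Finset.univ) fun j _ => h0 j)
    rwa [Finset.univ_sum_single, add_sub_cancel] at h1
  intro S
  induction S using Finset.induction with
  | empty => exact fun _ => ⟨0, zero_mem _, by simp⟩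
  | @insert q S hqS ih =>
    intro hS
    obtain ⟨w, hw, hwv⟩ := ih fun q' hq' => hS q' (Finset.mem_insert_of_mem hq')
    have hq := hS q (Finset.mem_insert_self _ _)
    obtain ⟨v, hv'⟩ := exists_hasValue (hk q.1) (hreg q.1 q.2 hq.1)
    obtain ⟨v', hwq⟩ := H.exists_val hw hq.1
    obtain ⟨e, he, he1, he0⟩ := H.exists_indicator (q := q)
      (S.filter fun q' => ¬ J.SameVal x q q') fun q' hq' =>
        ⟨(hS q' (Finset.mem_insert_of_mem (Finset.mem_filter.1 hq').1)).1,
          (Finset.mem_filter.1 hq').2⟩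
    refine ⟨w + (v - v') • e, add_mem hw (Submodule.smul_mem _ _ he), fun q' hq' v'' hv'' => ?_⟩
    rw [Pi.add_apply, Pi.smul_apply, Algebra.smul_def]
    by_cases hs : J.SameVal x q q'
    · have h1 := hwq.add (he1.smul (v - v'))
      rw [mul_one, add_sub_cancel] at h1
      have h2 := hs _ (add_mem hw (Submodule.smul_mem _ (v - v') he)) v (by
        rw [Pi.add_apply, Pi.smul_apply, Algebra.smul_def]; exact h1)
      rw [Pi.add_apply, Pi.smul_apply, Algebra.smul_def] at h2
      rwa [hv''.unique (hv q q' hq (hS q' hq') hs v hv')]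
    · have hq'S : q' ∈ S := by
        rcases Finset.mem_insert.1 hq' with rfl | h'
        · exact absurd (fun _ _ _ hv => hv) hs
        · exact h'
      have h1 := (hwv q' hq'S v'' hv'').add
        ((he0 q' (Finset.mem_filter.2 ⟨hq'S, hs⟩)).smul (v - v'))
      rwa [mul_zero, add_zero] at h1

/-- A non-branch point has a function vanishing there with value `1` at all branches. -/
theorem exists_one_vanishing {q : Σ i, Place k (Fk i)} (hq : MultiRed.FinPt xb q)
    (hnb : ¬ J.IsBranch x xb q) : ∃ e ∈ J.glued x, HasValue q.2 (e q.1) 0 ∧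
      ∀ q', J.IsBranch x xb q' → HasValue q'.2 (e q'.1) 1 := by
  classical
  obtain ⟨v, hv, hv1, hv0⟩ := H.exists_indicator (q := q) H.finite_branches.toFinset fun q' hq' => by
    have hb := H.finite_branches.mem_toFinset.1 hq'
    exact ⟨hb.1, fun hs => hnb ⟨hq, q', fun e => hnb (e ▸ hb), hb.1, hs⟩⟩
  refine ⟨1 - v, sub_mem (J.one_mem_glued x) hv, ?_, fun q' hb => ?_⟩
  · have := ((hasValue_algebraMap q.2 (1 : k))).sub hv1
    rwa [sub_self, map_one] at this
  · have := ((hasValue_algebraMap q'.2 (1 : k))).sub (hv0 q' (H.finite_branches.mem_toFinset.2 hb))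
    rwa [sub_zero, map_one] at this

/-- Lifts in a given degree. -/
theorem exists_lift_big : ∃ m₁ : ℕ, ∀ m, m₁ ≤ m → ∀ ub ∈ J.glued x,
    (∀ i, ub i ∈ riemannRochSpace (m • poleDiv (hk i) (xb i))) →
      ∃ u ∈ riemannRochSpace (m • poleDiv hF x), J.Red u ub := by
  classical
  obtain ⟨m₀, hm₀⟩ := H.top
  let RR : Submodule k (∀ i, Fk i) :=
    Submodule.pi Set.univ fun i => riemannRochSpace (m₀ • poleDiv (hk i) (xb i))
  set G₀ := J.glued x ⊓ RR
  haveI : Module.Finite k RR := by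
    haveI := fun i => finite_riemannRochSpace (hk i) (m₀ • poleDiv (hk i) (xb i))
    let f : RR →ₗ[k] (∀ i, riemannRochSpace (m₀ • poleDiv (hk i) (xb i))) :=
      { toFun := fun r i => ⟨(r : ∀ i, Fk i) i, r.2 i trivial⟩
        map_add' := fun _ _ => rfl
        map_smul' := fun _ _ => rfl }
    exact Module.Finite.of_injective f fun r s h => Subtype.ext (funext fun i =>
      congrArg Subtype.val (congrFun h i))
  haveI : Module.Finite k G₀ := Submodule.finiteDimensional_of_le inf_le_right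
  obtain ⟨b, hb⟩ : ∃ b : Finset (∀ i, Fk i), Submodule.span k (b : Set (∀ i, Fk i)) = G₀ :=
    (Module.Finite.iff_fg.1 ‹_›)
  have hlift : ∀ g ∈ b, ∃ m : ℕ, ∀ m' : ℕ, m ≤ m' →
      ∃ u ∈ riemannRochSpace (m' • poleDiv hF x), J.Red u g := by
    intro g hg
    obtain ⟨u, hu, hug⟩ := (hb ▸ Submodule.subset_span (Finset.mem_coe.2 hg) : g ∈ G₀).1
    obtain ⟨m, hm⟩ := MultiRed.exists_mem_nB hF H.chart.transX hu
    exact ⟨m, fun m' hm' => ⟨u, hm m' hm', hug⟩⟩
  choose! μ hμ using hlift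
  refine ⟨m₀ + b.sup μ, fun m hm => ?_⟩
  -- the span lifts in every large degree
  have hbase : ∀ g ∈ G₀, ∃ u ∈ riemannRochSpace (m • poleDiv hF x), J.Red u g := by
    intro g hg
    rw [← hb] at hg
    induction hg using Submodule.span_induction with
    | mem y hy => exact hμ y hy m ((Finset.le_sup (f := μ) hy).trans (by omega))
    | zero => exact ⟨0, zero_mem _, J.red_zero⟩
    | add y z _ _ hy hz =>
      obtain ⟨u, hu, huy⟩ := hy
      obtain ⟨w, hw, hwz⟩ := hz
      exact ⟨u + w, add_mem hu hw, huy.add hwz⟩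
    | smul a y _ hy =>
      obtain ⟨u, hu, huy⟩ := hy
      obtain ⟨a', rfl⟩ := J.π_surjective a
      exact ⟨_, by rw [← Algebra.smul_def]; exact Submodule.smul_mem _ _ hu, huy.smul a'⟩
  have hdesc : ∀ j, m₀ ≤ j → j ≤ m → ∀ ub ∈ J.glued x,
      (∀ i, ub i ∈ riemannRochSpace (j • poleDiv (hk i) (xb i))) →
        ∃ u ∈ riemannRochSpace (m • poleDiv hF x), J.Red u ub := by
    intro j hj
    induction j, hj using Nat.le_induction with
    | base => exact fun _ ub hub h => hbase ub ⟨hub, fun i _ => h i⟩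
    | succ j hj ih =>
      intro hjm ub hub h
      choose u hu w hw hwi hwo using fun i => hm₀ (j + 1) (by omega) i (ub i) (h i)
      have hsum : J.Red (∑ i, u i) (∑ i, w i) := MultiRed.red_sum fun i _ => hw i
      have hle : (j + 1) • poleDiv hF x ≤ m • poleDiv hF x :=
        nsmul_le_nsmul_left (poleDiv_nonneg hF x) hjm
      have hg : ub - ∑ i, w i ∈ J.glued x := sub_mem hub ⟨∑ i, u i, sum_mem fun i _ =>
        ((mem_riemannRoch_nB hF H.chart.transX).1 (hu i)).1, hsum⟩
      obtain ⟨v, hv, hvr⟩ := ih (by omega) _ hg fun i => by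
        rw [Pi.sub_apply, Finset.sum_apply, ← Finset.add_sum_erase _ _ (Finset.mem_univ i),
          ← sub_sub, ← neg_sub (w i i) (ub i)]
        refine sub_mem (neg_mem ?_) (sum_mem fun l hl => ?_)
        · exact hwi i
        · exact hwo l i (Finset.ne_of_mem_erase hl).symm
      exact ⟨v + ∑ i, u i, add_mem hv (riemannRochSpace_mono hle (sum_mem fun i _ => hu i)), by
        have := hvr.add hsum
        rwa [sub_add_cancel] at this⟩
  exact hdesc m (by omega) le_rfl

end FibreHyp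

end FA.ModField
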