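import Fermat.Agent.ModField.Semistable.Joint.Glue

/-!
# The specialisation of places to the glued special fibre

Every place has a centre on one of the components; divisors of functions with nonzero reduction
on a component specialise to the divisor of the reduction away from the branches.
-/

set_option autoImplicit false
set_option linter.style.haveILetI false
set_option linter.unusedSectionVars false

noncomputable section

namespace FA.ModField

open AlgebraicCurve FA.Curve FA.CurveRed FA.CurveRed.ConstRed Polynomial IntermediateField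

variable {K F k : Type*} [Field K] [IsAlgClosed K] [Field F] [Algebra K F] [Field k]
  [IsAlgClosed k] {ι : Type*} [Fintype ι] [Nonempty ι] [DecidableEq ι] {Fk : ι → Type*}
  [∀ i, Field (Fk i)] [∀ i, Algebra k (Fk i)] {A : ValuationSubring K}

namespace MultiRed

variable (J : MultiRed K F k Fk A) (x : F) (xb : ∀ i, Fk i)

/-- `x` has an integral value at `P`. -/
def Inside (_J : MultiRed K F k Fk A) (x : F) (P : Place K F) : Prop :=
  ∃ (c : K) (_ : c ∈ A), HasValue P x c

open Classical in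
/-- The normalising factor upstairs. -/
def nUp (P : Place K F) : F := if J.Inside x P then 1 else x⁻¹

open Classical in
/-- The normalising factor downstairs. -/
def nDown (q : Σ i, Place k (Fk i)) : Fk q.1 := if FinPt xb q then 1 else (xb q.1)⁻¹

theorem mul_inv_pow_mem (hF : IsFunctionField K F) {x : F} (hx : Transcendental K x) {m : ℕ}
    {u : F} (hu : u ∈ riemannRochSpace (m • poleDiv hF x)) :
    u * x⁻¹ ^ m ∈ regSub (K := K) x⁻¹ := by
  have hx0 : x ≠ 0 := x_ne_zero hF hx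
  rw [mem_riemannRoch_nB hF hx] at hu
  intro P hP
  rw [P.ord_inv] at hP
  rcases eq_or_ne u 0 with rfl | hu0
  · rw [zero_mul]; exact atLeast_zero
  refine Or.inr ?_
  rw [P.ord_mul hu0 (pow_ne_zero _ (inv_ne_zero hx0)), place_ord_pow, P.ord_inv]
  rcases (le_of_not_gt fun h' => absurd hP (by omega) : P.ord x ≤ 0).lt_or_eq with hlt | heq
  · have := (atLeast_iff hu0).1 (hu.2 P hlt)
    linarith
  · have := (atLeast_iff hu0).1 (hu.1 P heq.ge)
    rw [heq]
    simpa using this

omit [IsAlgClosed k] [Fintype ι] [Nonempty ι] [DecidableEq ι] in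
theorem mapDomain_eq_degree_filter (hF : IsFunctionField K F) {T : Type*} (f : Place K F → T)
    (D : Divisor K F) (t : T) [DecidablePred fun P => f P = t] :
    Finsupp.mapDomain f D t = Divisor.degree (D.filter fun P => f P = t) := by
  classical
  rw [degree_eq_finset_sum hF _ (S := D.support.filter fun P => f P = t) (by
      rw [Finsupp.support_filter]),
    Finsupp.mapDomain, Finsupp.sum_apply, Finsupp.sum, Finset.sum_filter]
  exact Finset.sum_congr rfl fun P _ => by
    rw [Finsupp.single_apply]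
    split_ifs with h <;> simp [h]

end MultiRed

namespace FibreHyp

variable {J : MultiRed K F k Fk A} {hF : IsFunctionField K F}
  {hk : ∀ i, IsFunctionField k (Fk i)} {x : F} {xb : ∀ i, Fk i}

theorem exists_nctr (H : FibreHyp J hF hk x xb) (P : Place K F) :
    ∃ q : Σ i, Place k (Fk i), (MultiRed.FinPt xb q ↔ J.Inside x P) ∧
      ∀ (m : ℕ) (u : F) (ub : ∀ i, Fk i), u ∈ riemannRochSpace (m • poleDiv hF x) →
        J.Red u ub → ∀ b : K, HasValue P (u * J.nUp x P ^ m) b →
          ∃ hb : b ∈ A, HasValue q.2 (ub q.1 * MultiRed.nDown xb q ^ m) (J.π ⟨b, hb⟩) := by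
  classical
  have hx := H.chart.transX
  have hx0 : x ≠ 0 := x_ne_zero hF hx
  by_cases hP : J.Inside x P
  · obtain ⟨c, hcA, hc⟩ := hP
    obtain ⟨q, hq, hctr⟩ := H.chart.exists_center hF hk hcA hc
    have hfin : MultiRed.FinPt xb q := (atLeast_iff (H.chart.xb_ne_zero q.1)).1 hq.atLeast
    refine ⟨q, ⟨fun _ => ⟨c, hcA, hc⟩, fun _ => hfin⟩, fun m u ub hu hub b hb => ?_⟩
    rw [MultiRed.nUp, if_pos ⟨c, hcA, hc⟩, one_pow, mul_one] at hb
    rw [MultiRed.nDown, if_pos hfin, one_pow, mul_one]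
    exact hctr u ub ((mem_riemannRoch_nB hF hx).1 hu).1 hub b hb
  · obtain ⟨c, hcA, hπ, hc⟩ : ∃ c, ∃ hc : c ∈ A, J.π ⟨c, hc⟩ = 0 ∧ HasValue P x⁻¹ c := by
      rcases lt_or_ge (P.ord x) 0 with hneg | hnn
      · refine ⟨0, zero_mem _, map_zero J.π, ?_⟩
        rw [hasValue_zero_iff]
        exact Or.inr (by rw [P.ord_inv]; omega)
      · obtain ⟨c, hc⟩ := exists_hasValue hF (Or.inr hnn : AtLeast P 0 x)
        have hcA : c ∉ A := fun h' => hP ⟨c, h', hc⟩
        have hc0 : c ≠ 0 := fun h0 => hcA (h0 ▸ zero_mem A)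
        refine ⟨c⁻¹, (A.mem_or_inv_mem c).resolve_left hcA, ?_, ?_⟩
        · rw [J.π_eq_zero]
          show A.valuation c⁻¹ < 1
          rw [map_inv₀]
          exact inv_lt_one_of_one_lt₀
            (lt_of_not_ge fun h' => hcA ((A.valuation_le_one_iff c).1 h'))
        · have hord := (hc.ord_eq_zero hc0).2
          have he : x⁻¹ - algebraMap K F c⁻¹ =
              -(algebraMap K F c⁻¹ * x⁻¹ * (x - algebraMap K F c)) := by
            have : algebraMap K F c ≠ 0 := (_root_.map_ne_zero _).2 hc0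
            rw [map_inv₀]
            field_simp
            ring
          rw [HasValue, he]
          have h1 := ((atLeast_algebraMap (v := P) c⁻¹).mul (atLeast_ord x⁻¹)).mul hc
          rw [P.ord_inv, hord] at h1
          simpa using h1.neg
    obtain ⟨q, hq, hctr⟩ := H.chart.inv.exists_center hF hk hcA hc
    rw [hπ, hasValue_zero_iff, atLeast_iff (inv_ne_zero (H.chart.xb_ne_zero q.1)),
      Place.ord_inv] at hq
    have hfin : ¬ MultiRed.FinPt xb q := fun h' => by
      simp only [MultiRed.FinPt] at h'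
      omega
    refine ⟨q, ⟨fun h' => absurd h' hfin, fun h' => absurd h' hP⟩, fun m u ub hu hub b hb => ?_⟩
    rw [MultiRed.nUp, if_neg hP] at hb
    rw [MultiRed.nDown, if_neg hfin]
    exact hctr _ _ (MultiRed.mul_inv_pow_mem hF hx hu) (hub.mul (H.chart.inv.red_x.pow m)) b hb

variable (H : FibreHyp J hF hk x xb)

/-- The centre of a place. -/
def ctr (P : Place K F) : Σ i, Place k (Fk i) := (H.exists_nctr P).choose

theorem finPt_ctr (P : Place K F) : MultiRed.FinPt xb (H.ctr P) ↔ J.Inside x P :=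
  (H.exists_nctr P).choose_spec.1

include H in
theorem nUp_regular {P : Place K F} {m : ℕ} {u : F}
    (hu : u ∈ riemannRochSpace (m • poleDiv hF x)) : AtLeast P 0 (u * J.nUp x P ^ m) := by
  classical
  have hx := H.chart.transX
  rw [MultiRed.nUp]
  split_ifs with h
  · obtain ⟨c, _, hc⟩ := h
    rw [one_pow, mul_one]
    exact ((mem_riemannRoch_nB hF hx).1 hu).1 P ((atLeast_iff (x_ne_zero hF hx)).1 hc.atLeast)
  · refine MultiRed.mul_inv_pow_mem hF hx hu P ?_
    rw [P.ord_inv]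
    by_contra hlt
    have h1 : 0 ≤ P.ord x := by omega
    obtain ⟨c, hc⟩ := exists_hasValue hF (Or.inr h1 : AtLeast P 0 x)
    have hc0 : c ≠ 0 := fun h0 => h ⟨c, h0 ▸ zero_mem A, hc⟩
    have := (hc.ord_eq_zero hc0).2
    omega

open Classical in
/-- The specialisation, `none` at the branches. -/
def splMap (P : Place K F) : Option (Σ i, Place k (Fk i)) :=
  if J.IsBranch x xb (H.ctr P) then none else some (H.ctr P)

theorem splMap_eq_some {P : Place K F} {q : Σ i, Place k (Fk i)} :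
    H.splMap P = some q ↔ H.ctr P = q ∧ ¬ J.IsBranch x xb q := by
  classical
  rw [splMap]
  split_ifs with h
  · simp only [false_iff, not_and, not_not]
    rintro rfl
    exact h
  · rw [Option.some.injEq]
    exact ⟨fun e => ⟨e, e ▸ h⟩, And.left⟩

theorem splMap_eq_none {P : Place K F} : H.splMap P = none ↔ J.IsBranch x xb (H.ctr P) := by
  classical
  rw [splMap]
  split_ifs with h <;> simp [h]

/-- The order of vanishing in degree `m` on the component. -/
def degOrd (_H : FibreHyp J hF hk x xb) (m : ℕ) (r : ∀ i, Fk i) (q : Σ i, Place k (Fk i)) : ℤ :=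
  q.2.ord (r q.1) + (m • poleDiv (hk q.1) (xb q.1)) q.2

theorem ord_nDown {m : ℕ} {r : ∀ i, Fk i} {q : Σ i, Place k (Fk i)} (hr : r q.1 ≠ 0) :
    r q.1 * MultiRed.nDown xb q ^ m ≠ 0 ∧
      q.2.ord (r q.1 * MultiRed.nDown xb q ^ m) = H.degOrd m r q := by
  classical
  have hx0 := H.chart.xb_ne_zero q.1
  rw [MultiRed.nDown, degOrd]
  split_ifs with h
  · rw [one_pow, mul_one, MultiRed.nsmul_poleDiv_of_nonneg (hk q.1) h, add_zero]
    exact ⟨hr, rfl⟩
  · simp only [MultiRed.FinPt, not_le] at h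
    refine ⟨mul_ne_zero hr (pow_ne_zero _ (inv_ne_zero hx0)), ?_⟩
    rw [q.2.ord_mul hr (pow_ne_zero _ (inv_ne_zero hx0)), place_ord_pow, q.2.ord_inv,
      MultiRed.nsmul_poleDiv_of_neg (hk q.1) h.le]
    ring

/-- The value of a section at a place vanishes exactly over the zeros of its reduction. -/
theorem exists_zero_iff (P : Place K F) {m : ℕ} {z : F} {zb : ∀ i, Fk i}
    (hz : z ∈ riemannRochSpace (m • poleDiv hF x)) (hzb : J.Red z zb)
    (hne : zb (H.ctr P).1 ≠ 0) :
    ∃ b : K, ∃ hb : b ∈ A, HasValue P (z * J.nUp x P ^ m) b ∧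
      (J.π ⟨b, hb⟩ = 0 ↔ 0 < H.degOrd m zb (H.ctr P)) := by
  obtain ⟨b, hb⟩ := exists_hasValue hF (H.nUp_regular (P := P) hz)
  obtain ⟨hbA, hv⟩ := (H.exists_nctr P).choose_spec.2 m z zb hz hzb b hb
  obtain ⟨h0, hord⟩ := H.ord_nDown (m := m) (r := zb) (q := H.ctr P) hne
  refine ⟨b, hbA, hb, fun hπ => ?_, fun hpos => ?_⟩
  · rw [hπ, hasValue_zero_iff] at hv
    have h1 : (1 : ℤ) ≤ (H.ctr P).2.ord (zb (H.ctr P).1 * MultiRed.nDown xb (H.ctr P) ^ m) :=
      (atLeast_iff h0).1 hv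
    rw [hord] at h1
    omega
  · refine hv.unique (hasValue_zero_iff.2 (Or.inr ?_))
    rw [← hord] at hpos
    exact hpos

include H in
theorem degOrd_nonneg {m : ℕ} {r : ∀ i, Fk i} {q : Σ i, Place k (Fk i)}
    (hr : r q.1 ∈ riemannRochSpace (m • poleDiv (hk q.1) (xb q.1))) (hr0 : r q.1 ≠ 0) :
    0 ≤ H.degOrd m r q := by
  have := (atLeast_iff hr0).1 (FA.Curve.mem_riemannRochSpace.1 hr q.2)
  rw [degOrd]
  omega

include H in
theorem branch_degOrd {m : ℕ} {r : ∀ i, Fk i} {q : Σ i, Place k (Fk i)}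
    (hb : J.IsBranch x xb q) (hv : HasValue q.2 (r q.1) 1) : H.degOrd m r q = 0 := by
  rw [degOrd, MultiRed.nsmul_poleDiv_of_nonneg (hk q.1) hb.1, add_zero]
  exact (hv.ord_eq_zero one_ne_zero).2

include H in
open Classical in
/-- Two sections whose quotient is a chart with a simple zero at `q`. -/
theorem exists_pair {q : Σ i, Place k (Fk i)} (hnb : ¬ J.IsBranch x xb q)
    (bad : Finset (Σ i, Place k (Fk i))) :
    ∃ (m : ℕ) (z₁ z₂ : F) (z₁b z₂b : ∀ i, Fk i), 0 < m ∧
      z₁ ∈ riemannRochSpace (m • poleDiv hF x) ∧ z₂ ∈ riemannRochSpace (m • poleDiv hF x) ∧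
      J.Red z₁ z₁b ∧ J.Red z₂ z₂b ∧ (∀ j, z₁b j ≠ 0) ∧ (∀ j, z₂b j ≠ 0) ∧
      (∀ p, 0 ≤ H.degOrd m z₁b p ∧ 0 ≤ H.degOrd m z₂b p) ∧
      (∀ p, 0 < H.degOrd m z₁b p → H.degOrd m z₂b p = 0) ∧
      (∀ p, J.IsBranch x xb p → H.degOrd m z₁b p = 0) ∧
      (∀ p, p = q ∨ p ∈ bad → ¬ J.IsBranch x xb p →
        H.degOrd m z₁b p = if p = q then 1 else 0) ∧
      ∀ j, ∃ Q, 0 < H.degOrd m z₁b ⟨j, Q⟩ := by
  obtain ⟨i, Q⟩ := q
  set T : ∀ j, Finset (Place k (Fk j)) := fun j =>
    Finset.preimage (H.finite_branches.toFinset : Finset (Σ i, Place k (Fk i)))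
      (fun Q' : Place k (Fk j) => (⟨j, Q'⟩ : Σ i, Place k (Fk i)))
      (fun _ _ _ _ h => eq_of_heq (Sigma.mk.inj h).2) with hTdef
  have hT : ∀ j Q', Q' ∈ T j ↔ J.IsBranch x xb ⟨j, Q'⟩ := fun j Q' => by
    rw [hTdef]
    exact Finset.mem_preimage.trans H.finite_branches.mem_toFinset
  choose c hc using fun j => MultiRed.exists_exact_one (hk j)
  obtain ⟨m₁, hm₁⟩ := H.exists_lift_big
  -- a function on the component of `q` with value one at the branches
  obtain ⟨m₂, e, heT, hem⟩ : ∃ (m₂ : ℕ) (e : Fk i), (∀ Q' ∈ T i, HasValue Q' e 1) ∧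
      ∀ m, m₂ ≤ m → 0 < m → e ∈ riemannRochSpace
        (m • poleDiv (hk i) (xb i) - Finsupp.single Q 1) := by
    by_cases hQ : 0 ≤ Q.ord (xb i)
    · obtain ⟨eb, heb, he0, he1⟩ := H.exists_one_vanishing (q := ⟨i, Q⟩) hQ hnb
      obtain ⟨m₂, hm₂⟩ := MultiRed.exists_mem_nB (hk i) (H.chart.trans i) (H.reg_of_glued heb i)
      refine ⟨m₂, eb i, fun Q' hQ' => he1 ⟨i, Q'⟩ ((hT i Q').1 hQ'), fun m hm _ => ?_⟩
      rw [FA.Curve.mem_riemannRochSpace]
      intro v
      rw [Finsupp.sub_apply]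
      rcases eq_or_ne v Q with rfl | hv
      · rw [MultiRed.nsmul_poleDiv_of_nonneg (hk i) hQ, Finsupp.single_eq_same]
        simpa using hasValue_zero_iff.1 he0
      · rw [Finsupp.single_eq_of_ne hv, sub_zero]
        exact FA.Curve.mem_riemannRochSpace.1 (hm₂ m hm) v
    · refine ⟨0, 1, fun Q' _ => by simpa using hasValue_algebraMap Q' (1 : k), fun m _ hm => ?_⟩
      rw [FA.Curve.mem_riemannRochSpace]
      intro v
      refine Or.inr ?_
      rw [v.ord_one, Finsupp.sub_apply]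
      have hv0 : 0 ≤ (m • poleDiv (hk i) (xb i)) v :=
        Finsupp.le_def.1 (nsmul_nonneg (poleDiv_nonneg (hk i) (xb i)) m) v
      rcases eq_or_ne v Q with rfl | hv
      · rw [Finsupp.single_eq_same, MultiRed.nsmul_poleDiv_of_neg (hk i) (by omega)]
        have h1 : v.ord (xb i) ≤ -1 := by omega
        have h2 : (1 : ℤ) ≤ m := by exact_mod_cast hm
        nlinarith
      · rw [Finsupp.single_eq_of_ne hv, sub_zero]
        omega
  obtain ⟨m, hm1, hm2, hm3, hmc⟩ : ∃ m : ℕ, m₁ ≤ m ∧ m₂ ≤ m ∧ 0 < m ∧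
      ∀ j, c j + (T j).card + 1 ≤ (m : ℤ) := by
    refine ⟨m₁ + m₂ + 1 + ∑ j, (c j + (T j).card + 1).toNat, by omega, by omega, by omega,
      fun j => ?_⟩
    have := Finset.single_le_sum (f := fun j => (c j + (T j).card + 1).toNat)
      (fun _ _ => Nat.zero_le _) (Finset.mem_univ j)
    omega
  set B := fun j => m • poleDiv (hk j) (xb j) with hBdef
  have hBT : ∀ j, ∀ v ∈ T j, B j v = 0 := fun j v hv =>
    MultiRed.nsmul_poleDiv_of_nonneg (hk j) ((hT j v).1 hv).1 m
  have hB1 : ∀ j, (m : ℤ) ≤ Divisor.degree (B j) := fun j =>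
    MultiRed.le_degree_nB (hk j) (H.chart.trans j) m
  have hBnn : ∀ j, (1 : Fk j) ∈ riemannRochSpace (B j) := fun j =>
    one_mem_nB (hk j) (H.chart.trans j) m
  set nbad := insert ⟨i, Q⟩ bad
  set S₁ : ∀ j, Finset (Place k (Fk j)) := fun j =>
    (Finset.preimage nbad (fun Q' : Place k (Fk j) => (⟨j, Q'⟩ : Σ i, Place k (Fk i)))
      (fun _ _ _ _ h => eq_of_heq (Sigma.mk.inj h).2)) \ T j
  -- the first section
  obtain ⟨D₁, hD₁i, hD₁o⟩ : ∃ D : ∀ j, Divisor k (Fk j),
      D i = B i - Finsupp.single Q 1 ∧ ∀ j, j ≠ i → D j = B j :=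
    ⟨Function.update B i (B i - Finsupp.single Q 1), Function.update_self _ _ _,
      fun j hj => Function.update_of_ne hj _ _⟩
  have hD₁le : ∀ j, D₁ j ≤ B j := fun j => by
    rcases eq_or_ne j i with rfl | hj
    · rw [hD₁i]; exact sub_le_self _ (Finsupp.single_nonneg.2 zero_le_one)
    · rw [hD₁o j hj]
  have hex1 : ∀ j, ∃ r : Fk j, r ∈ riemannRochSpace (D₁ j) ∧ r ≠ 0 ∧
      (∀ v ∈ S₁ j, v.ord r = -D₁ j v) ∧ ∀ v ∈ T j, HasValue v r 1 := by
    intro j
    have hd : Disjoint (S₁ j) (T j) := Finset.sdiff_disjoint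
    rcases eq_or_ne j i with rfl | hj
    · refine hc j (D₁ j) (T j) (S₁ j) hd (fun v hv => ?_) ?_ e (hD₁i ▸ hem m hm2 hm3) heT
      · rw [hD₁i, Finsupp.sub_apply, hBT j v hv, Finsupp.single_eq_of_ne, sub_zero]
        rintro rfl
        exact hnb ((hT j v).1 hv)
      · rw [hD₁i, map_sub, Divisor.degree_single, (hk j).deg_eq_one]
        have := hB1 j
        have := hmc j
        push_cast
        omega
    · refine hc j (D₁ j) (T j) (S₁ j) hd (fun v hv => hD₁o j hj ▸ hBT j v hv) ?_ 1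
        (hD₁o j hj ▸ hBnn j) (fun v _ => by simpa using hasValue_algebraMap v (1 : k))
      rw [hD₁o j hj]
      have := hB1 j
      have := hmc j
      omega
  choose z₁b hz₁D hz₁0 hz₁S hz₁T using hex1
  have hz₁B : ∀ j, z₁b j ∈ riemannRochSpace (B j) := fun j =>
    riemannRochSpace_mono (hD₁le j) (hz₁D j)
  have hD1pos : ∀ j, {Q' | H.degOrd m z₁b ⟨j, Q'⟩ ≠ 0}.Finite := fun j =>
    ((divOf (hk j) (z₁b j) + B j).support.finite_toSet).subset fun Q' hQ' => by
      rw [Finset.mem_coe, Finsupp.mem_support_iff, Finsupp.add_apply, divOf_apply]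
      exact hQ'
  -- the second section
  set S₂ : ∀ j, Finset (Place k (Fk j)) := fun j => (S₁ j ∪ (hD1pos j).toFinset) \ T j
  have hex2 : ∀ j, ∃ r : Fk j, r ∈ riemannRochSpace (B j) ∧ r ≠ 0 ∧
      (∀ v ∈ S₂ j, v.ord r = -B j v) ∧ ∀ v ∈ T j, HasValue v r 1 := fun j =>
    hc j (B j) (T j) (S₂ j) Finset.sdiff_disjoint (hBT j) (by
      have := hB1 j
      have := hmc j
      omega) 1 (hBnn j) (fun v _ => by simpa using hasValue_algebraMap v (1 : k))
  choose z₂b hz₂B hz₂0 hz₂S hz₂T using hex2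
  have hglue : ∀ zb : ∀ j, Fk j, (∀ j, zb j ∈ riemannRochSpace (B j)) →
      (∀ j, ∀ v ∈ T j, HasValue v (zb j) 1) → ∃ z ∈ riemannRochSpace (m • poleDiv hF x),
        J.Red z zb := fun zb hzB hz1 =>
    hm₁ m hm1 zb (H.mem_glued_of_values
      (fun j => ((mem_riemannRoch_nB (hk j) (H.chart.trans j)).1 (hzB j)).1)
      fun p p' hp hp' _ v hv => by
        rw [hv.unique (hz1 p.1 p.2 ((hT _ _).2 hp))]
        exact hz1 p'.1 p'.2 ((hT _ _).2 hp')) hzB
  obtain ⟨z₁, hz₁, hz₁r⟩ := hglue z₁b hz₁B hz₁T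
  obtain ⟨z₂, hz₂, hz₂r⟩ := hglue z₂b hz₂B hz₂T
  have hbr : ∀ p, J.IsBranch x xb p → H.degOrd m z₁b p = 0 := fun p hp =>
    H.branch_degOrd hp (hz₁T p.1 p.2 ((hT _ _).2 hp))
  refine ⟨m, z₁, z₂, z₁b, z₂b, hm3, hz₁, hz₂, hz₁r, hz₂r, hz₁0, hz₂0, fun p =>
    ⟨H.degOrd_nonneg (hz₁B p.1) (hz₁0 p.1), H.degOrd_nonneg (hz₂B p.1) (hz₂0 p.1)⟩,
    fun p hp => ?_, hbr, ?_, fun j => ?_⟩
  · obtain ⟨j, Q'⟩ := p
    have hmem : Q' ∈ S₂ j := Finset.mem_sdiff.2 ⟨Finset.mem_union_right _
      ((hD1pos j).mem_toFinset.2 hp.ne'), fun h' => hp.ne' (hbr _ ((hT j Q').1 h'))⟩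
    show Q'.ord (z₂b j) + B j Q' = 0
    rw [hz₂S j Q' hmem, neg_add_cancel]
  · rintro ⟨j, Q'⟩ hor hpb
    have hmem : Q' ∈ S₁ j := Finset.mem_sdiff.2 ⟨Finset.mem_preimage.2 (by
      rcases hor with h' | h'
      · exact h' ▸ Finset.mem_insert_self _ _
      · exact Finset.mem_insert_of_mem h'), fun h' => hpb ((hT j Q').1 h')⟩
    show Q'.ord (z₁b j) + B j Q' = _
    rw [hz₁S j Q' hmem]
    rcases eq_or_ne j i with rfl | hj
    · rw [hD₁i, Finsupp.sub_apply, Finsupp.single_apply]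
      by_cases hQQ : Q = Q'
      · subst hQQ; rw [if_pos rfl, if_pos rfl]; ring
      · rw [if_neg hQQ, if_neg (show (⟨j, Q'⟩ : Σ i, Place k (Fk i)) ≠ ⟨j, Q⟩ from
          fun e => hQQ (eq_of_heq (Sigma.mk.inj e).2).symm)]; ring
    · rw [hD₁o j hj, if_neg fun e => hj (congrArg Sigma.fst e), neg_add_cancel]
  · by_contra hno
    push Not at hno
    have hz : divOf (hk j) (z₁b j) + B j = 0 := Finsupp.ext fun v => by
      have h1 := hno v
      have h2 := H.degOrd_nonneg (q := ⟨j, v⟩) (hz₁B j) (hz₁0 j)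
      rw [Finsupp.add_apply, divOf_apply]
      show v.ord (z₁b j) + B j v = 0
      simp only [degOrd, hBdef] at h1 h2 ⊢
      omega
    have h3 := congrArg Divisor.degree hz
    rw [map_add, degree_divOf, map_zero, zero_add] at h3
    have := hB1 j
    omega

include H in
open Classical in
/-- Divisors specialise to the divisors of the reductions away from the branches. -/
theorem div_red {i : ι} {g : F} {r : Fk i} (hgr : (J.C i).Red g r) (hr : r ≠ 0)
    {Q : Place k (Fk i)} (hnb : ¬ J.IsBranch x xb ⟨i, Q⟩) :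
    Finsupp.mapDomain H.splMap (divOf hF g) (some ⟨i, Q⟩) = Q.ord r := by
  have hg0 := hgr.ne_zero hr
  choose c' g' r' h1 h2 h3 using fun j => J.scaled j g trivial hg0
  obtain ⟨cc, hcc, hcci⟩ : ∃ cc : ι → K, (∀ j, j ≠ i → cc j = c' j) ∧ cc i = 1 :=
    ⟨Function.update c' i 1, fun j hj => Function.update_of_ne hj _ _, Function.update_self _ _ _⟩
  obtain ⟨gg, hgg, hggi⟩ : ∃ gg : ι → F, (∀ j, j ≠ i → gg j = g' j) ∧ gg i = g :=
    ⟨Function.update g' i g, fun j hj => Function.update_of_ne hj _ _, Function.update_self _ _ _⟩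
  obtain ⟨rr, hrr, hrri⟩ : ∃ rr : ∀ j, Fk j, (∀ j, j ≠ i → rr j = r' j) ∧ rr i = r :=
    ⟨Function.update r' i r, fun j hj => Function.update_of_ne hj _ _, Function.update_self _ _ _⟩
  have hfg : ∀ j, g = algebraMap K F (cc j) * gg j := fun j => by
    rcases eq_or_ne j i with rfl | hj
    · rw [hcci, hggi, map_one, one_mul]
    · rw [hcc j hj, hgg j hj]; exact h1 j
  have hred : ∀ j, (J.C j).Red (gg j) (rr j) := fun j => by
    rcases eq_or_ne j i with rfl | hj
    · rw [hggi, hrri]; exact hgr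
    · rw [hgg j hj, hrr j hj]; exact h2 j
  have hrr0 : ∀ j, rr j ≠ 0 := fun j => by
    rcases eq_or_ne j i with rfl | hj
    · rw [hrri]; exact hr
    · rw [hrr j hj]; exact h3 j
  set q : Σ i, Place k (Fk i) := ⟨i, Q⟩ with hqdef
  set bad : Finset (Σ i, Place k (Fk i)) := (divOf hF g).support.image H.ctr ∪
    Finset.univ.sigma fun j => (divOf (hk j) (rr j)).support
  obtain ⟨m, z₁, z₂, z₁b, z₂b, hm, hz₁, hz₂, hz₁r, hz₂r, hz₁0, hz₂0, hnn, hdisj, hbr, hexact,
    hpos⟩ := H.exists_pair hnb bad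
  set w := z₁ * z₂⁻¹ with hwdef
  set wb : ∀ j, Fk j := fun j => z₁b j * (z₂b j)⁻¹ with hwbdef
  have hwb0 : ∀ j, wb j ≠ 0 := fun j => mul_ne_zero (hz₁0 j) (inv_ne_zero (hz₂0 j))
  have hwr : J.Red w wb := fun j => (hz₁r j).mul ((hz₂r j).inv (hz₂0 j))
  have hword : ∀ p : Σ i, Place k (Fk i),
      p.2.ord (wb p.1) = H.degOrd m z₁b p - H.degOrd m z₂b p := fun p => by
    rw [hwbdef, p.2.ord_mul (hz₁0 _) (inv_ne_zero (hz₂0 _)), p.2.ord_inv, degOrd, degOrd]
    ring
  have hwtr : ∀ j, Transcendental k (wb j) := fun j => by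
    obtain ⟨Q', hQ'⟩ := hpos j
    refine transcendental_of_ord_ne_zero Q' ?_
    rw [hword ⟨j, Q'⟩, hdisj _ hQ']
    omega
  have hx := H.chart.transX
  have hwT : Transcendental K w :=
    transcendental_of_red (hwr (Classical.arbitrary ι)) (hwtr _)
  have hz20 : z₂ ≠ 0 := hz₂r.ne_zero (hz₂0 (Classical.arbitrary ι))
  have hz10 : z₁ ≠ 0 := hz₁r.ne_zero (hz₁0 (Classical.arbitrary ι))
  have hchart : J.MChart w wb := by
    refine ⟨hwr, hwtr, ?_⟩
    have e1 : ∀ j, (Module.finrank k⟮wb j⟯ (Fk j) : ℤ) =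
        m * Module.finrank k⟮xb j⟯ (Fk j) := fun j => by
      rw [← degree_poleDiv (hk j) (hwtr j),
        show poleDiv (hk j) (wb j) = divOf (hk j) (z₂b j) + m • poleDiv (hk j) (xb j) from
          Finsupp.ext fun v => by
            rw [poleDiv_apply, Finsupp.add_apply, divOf_apply, hword ⟨j, v⟩]
            have h1 := hnn ⟨j, v⟩
            have h2 := hdisj ⟨j, v⟩
            show _ = H.degOrd m z₂b ⟨j, v⟩
            rcases h1.1.lt_or_eq with hp | hp
            · rw [h2 hp]; omega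
            · rw [← hp]; omega,
        map_add, degree_divOf, zero_add, map_nsmul, degree_poleDiv (hk j) (H.chart.trans j),
        nsmul_eq_mul]
    have e2 : (Module.finrank K⟮w⟯ F : ℤ) ≤ m * Module.finrank K⟮x⟯ F := by
      rw [← degree_poleDiv hF hwT]
      refine (degree_mono hF (D' := divOf hF z₂ + m • poleDiv hF x) (Finsupp.le_def.2 fun P => ?_)).trans
        (le_of_eq (by rw [map_add, degree_divOf, zero_add, map_nsmul, degree_poleDiv hF hx,
          nsmul_eq_mul]))
      have a1 := (atLeast_iff hz10).1 (FA.Curve.mem_riemannRochSpace.1 hz₁ P)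
      have a2 := (atLeast_iff hz20).1 (FA.Curve.mem_riemannRochSpace.1 hz₂ P)
      rw [poleDiv_apply, Finsupp.add_apply, divOf_apply, hwdef,
        P.ord_mul hz10 (inv_ne_zero hz20), P.ord_inv]
      omega
    have e3 : (Module.finrank K⟮x⟯ F : ℤ) ≤ ∑ j, (Module.finrank k⟮xb j⟯ (Fk j) : ℤ) := by
      exact_mod_cast H.chart.degree_le
    have e4 : (Module.finrank K⟮w⟯ F : ℤ) ≤ ∑ j, (Module.finrank k⟮wb j⟯ (Fk j) : ℤ) := by
      simp only [e1, ← Finset.mul_sum]
      exact e2.trans (mul_le_mul_of_nonneg_left e3 (Int.natCast_nonneg _))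
    exact_mod_cast e4
  -- where `w` is small
  have hdisc : ∀ P : Place K F, J.InDisc w P 0 ↔ 0 < H.degOrd m z₁b (H.ctr P) := by
    intro P
    obtain ⟨b₁, hb₁A, hb₁, hb₁z⟩ := H.exists_zero_iff P hz₁ hz₁r (hz₁0 _)
    obtain ⟨b₂, hb₂A, hb₂, hb₂z⟩ := H.exists_zero_iff P hz₂ hz₂r (hz₂0 _)
    have hn0 : J.nUp x P ≠ 0 := by
      rw [MultiRed.nUp]
      split_ifs
      · exact one_ne_zero
      · exact inv_ne_zero (x_ne_zero hF hx)
    have hmul : w * (z₂ * J.nUp x P ^ m) = z₁ * J.nUp x P ^ m := by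
      rw [hwdef, mul_assoc, inv_mul_cancel_left₀ hz20]
    constructor
    · rintro ⟨d, hdA, hd0, hd⟩
      rw [← hb₁z]
      have h1 : b₁ = d * b₂ := hb₁.unique (hmul ▸ hd.mul hb₂)
      rw [show (⟨b₁, hb₁A⟩ : A) = ⟨d, hdA⟩ * ⟨b₂, hb₂A⟩ from Subtype.ext h1, map_mul, hd0,
        zero_mul]
    · intro hp
      have hb2π : J.π ⟨b₂, hb₂A⟩ ≠ 0 := fun h0 => by
        have := hb₂z.1 h0
        rw [hdisj _ hp] at this
        omega
      have hb20 : b₂ ≠ 0 := fun h0 => hb2π (by
        rw [show (⟨b₂, hb₂A⟩ : A) = 0 from Subtype.ext h0, map_zero])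
      obtain ⟨hu20, hu2⟩ := hb₂.ord_eq_zero hb20
      have hreg : AtLeast P 0 w := by
        rw [show w = z₁ * J.nUp x P ^ m * (z₂ * J.nUp x P ^ m)⁻¹ by
          rw [← hmul, mul_assoc, mul_inv_cancel₀ hu20, mul_one]]
        refine (hb₁.atLeast.mul (atLeast_ord _)).mono ?_
        rw [P.ord_inv, hu2]
        omega
      obtain ⟨d, hd⟩ := exists_hasValue hF hreg
      have h1 : b₁ = d * b₂ := hb₁.unique (hmul ▸ hd.mul hb₂)
      have hb2i : b₂⁻¹ ∈ A := by
        rw [Ne, J.π_eq_zero, not_lt] at hb2π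
        rw [← A.valuation_le_one_iff, map_inv₀]
        exact inv_le_one_of_one_le₀ hb2π
      have hdA : d ∈ A := by
        rw [show d = b₁ * b₂⁻¹ by rw [h1, mul_assoc, mul_inv_cancel₀ hb20, mul_one]]
        exact mul_mem hb₁A hb2i
      refine ⟨d, hdA, ?_, hd⟩
      have h2 := hb₁z.2 hp
      rw [show (⟨b₁, hb₁A⟩ : A) = ⟨d, hdA⟩ * ⟨b₂, hb₂A⟩ from Subtype.ext h1, map_mul] at h2
      exact (mul_eq_zero.1 h2).resolve_right hb2π
  have hz := hchart.zone hF hk hfg hred hg0 hrr0 (0 : k)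
  -- upstairs
  have hL : (divOf hF g).filter (fun P => J.InDisc w P 0) =
      (divOf hF g).filter fun P => H.splMap P = some q := by
    ext P
    rw [Finsupp.filter_apply, Finsupp.filter_apply]
    rcases eq_or_ne (divOf hF g P) 0 with h0 | h0
    · rw [h0, ite_self, ite_self]
    refine if_congr ?_ rfl rfl
    rw [hdisc, H.splMap_eq_some]
    constructor
    · intro hp
      have hnb' : ¬ J.IsBranch x xb (H.ctr P) := fun hb => by
        rw [hbr _ hb] at hp
        omega
      have he := hexact _ (Or.inr (Finset.mem_union_left _ (Finset.mem_image_of_mem _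
        (Finsupp.mem_support_iff.2 h0)))) hnb'
      rw [he] at hp
      split_ifs at hp with hq
      · exact ⟨hq, hnb⟩
      · omega
    · rintro ⟨hq, -⟩
      rw [hq, hexact q (Or.inl rfl) hnb, if_pos rfl]
      omega
  -- downstairs
  have hR : ∀ j, (divOf (hk j) (rr j)).filter (fun Q' => HasValue Q' (wb j) 0) =
      (divOf (hk j) (rr j)).filter fun Q' => (⟨j, Q'⟩ : Σ i, Place k (Fk i)) = q := by
    intro j
    ext Q'
    rw [Finsupp.filter_apply, Finsupp.filter_apply]
    rcases eq_or_ne (divOf (hk j) (rr j) Q') 0 with h0 | h0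
    · rw [h0, ite_self, ite_self]
    refine if_congr ?_ rfl rfl
    rw [hasValue_zero_iff, atLeast_iff (hwb0 j), hword ⟨j, Q'⟩]
    constructor
    · intro hp
      have h1 := (hnn ⟨j, Q'⟩).2
      have hp' : 0 < H.degOrd m z₁b ⟨j, Q'⟩ := by omega
      have hnb' : ¬ J.IsBranch x xb ⟨j, Q'⟩ := fun hb => by
        rw [hbr _ hb] at hp'
        omega
      have he := hexact ⟨j, Q'⟩ (Or.inr (Finset.mem_union_right _ (Finset.mem_sigma.2
        ⟨Finset.mem_univ _, Finsupp.mem_support_iff.2 h0⟩))) hnb'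
      rw [he] at hp'
      split_ifs at hp' with hq
      · exact hq
      · omega
    · intro hq
      have he := hexact _ (Or.inl hq) (hq ▸ hnb)
      rw [if_pos hq] at he
      rw [he, hdisj _ (by omega)]
      omega
  rw [MultiRed.mapDomain_eq_degree_filter hF, ← hL, hz, Finset.sum_eq_single i]
  · rw [hR i, hrri, degree_eq_finset_sum (hk i) _ (S := {Q}) (fun Q' hQ' => by
      rw [Finsupp.support_filter, Finset.mem_filter] at hQ'
      rw [Finset.mem_singleton]
      exact eq_of_heq (Sigma.mk.inj hQ'.2).2), Finset.sum_singleton, Finsupp.filter_apply,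
      if_pos rfl, divOf_apply]
  · intro j _ hj
    rw [hR j, show (divOf (hk j) (rr j)).filter
      (fun Q' => (⟨j, Q'⟩ : Σ i, Place k (Fk i)) = q) = 0 from Finsupp.ext fun Q' => by
        rw [Finsupp.filter_apply, if_neg fun e => hj (congrArg Sigma.fst e)]; rfl, map_zero]
  · exact fun h' => absurd (Finset.mem_univ i) h'

include H in
/-- Every point outside the branches is the centre of some place. -/
theorem spl_surj {q : Σ i, Place k (Fk i)} (hnb : ¬ J.IsBranch x xb q) :
    ∃ P, H.splMap P = some q := by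
  classical
  obtain ⟨i, Q⟩ := q
  obtain ⟨t, ht⟩ := exists_uniformizer Q
  have ht0 : t ≠ 0 := by rintro rfl; simp at ht
  obtain ⟨f, hf, -⟩ := J.sep i t 0
  have h1 := H.div_red hf ht0 hnb
  rw [ht] at h1
  by_contra hno
  push Not at hno
  rw [Finsupp.mapDomain_of_notMem_range] at h1
  · omega
  · rintro ⟨P, hP⟩
    exact hno P hP

include H in
open Classical in
/-- Functions without poles in the tubes have common values along each class. -/
theorem glue {f : F} {r : ∀ i, Fk i} (hfr : J.Red f r)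
    (hf : ∀ P, H.splMap P = none → AtLeast P 0 f) :
    ∀ q, J.IsBranch x xb q → ∃ v, HasValue q.2 (r q.1) v ∧
      ∀ q', J.IsBranch x xb q' → J.SameVal x q q' → HasValue q'.2 (r q'.1) v := by
  have hx := H.chart.transX
  have hx0 : x ≠ 0 := x_ne_zero hF hx
  have hex : ∀ P : Place K F, H.splMap P ≠ none → ∃ (h : F) (hb : ∀ i, Fk i),
      h ∈ regSub (K := K) x ∧ J.Red h hb ∧
      (∀ q, J.IsBranch x xb q → HasValue q.2 (hb q.1) 1) ∧ (0 ≤ P.ord x → AtLeast P 1 h) := by
    intro P hP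
    rw [Ne, H.splMap_eq_none] at hP
    by_cases hin : J.Inside x P
    · obtain ⟨e, ⟨u, hu, hue⟩, he0, he1⟩ :=
        H.exists_one_vanishing ((H.finPt_ctr P).2 hin) hP
      obtain ⟨m, hm⟩ := MultiRed.exists_mem_nB hF hx hu
      obtain ⟨b, hb⟩ := exists_hasValue hF (H.nUp_regular (P := P) (hm m le_rfl))
      obtain ⟨hbA, hv⟩ := (H.exists_nctr P).choose_spec.2 m u e (hm m le_rfl) hue b hb
      change HasValue (H.ctr P).2 (e (H.ctr P).1 * MultiRed.nDown xb (H.ctr P) ^ m) _ at hv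
      rw [MultiRed.nDown, if_pos ((H.finPt_ctr P).2 hin), one_pow, mul_one] at hv
      rw [MultiRed.nUp, if_pos hin, one_pow, mul_one] at hb
      refine ⟨u - algebraMap K F b, e, sub_mem hu (MultiRed.const_mem_regSub x b), fun j => ?_,
        he1, fun _ => hb⟩
      have h1 := (hue j).sub (J.red_const_at j ⟨b, hbA⟩)
      rwa [hv.unique he0, map_zero, sub_zero] at h1
    · by_cases hnn : 0 ≤ P.ord x
      · obtain ⟨c, hc⟩ := exists_hasValue hF (Or.inr hnn : AtLeast P 0 x)
        have hcA : c ∉ A := fun h' => hin ⟨c, h', hc⟩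
        have hc0 : c ≠ 0 := fun h0 => hcA (h0 ▸ zero_mem A)
        have hci : c⁻¹ ∈ A := (A.mem_or_inv_mem c).resolve_left hcA
        have hπ : J.π ⟨c⁻¹, hci⟩ = 0 := by
          rw [J.π_eq_zero]
          show A.valuation c⁻¹ < 1
          rw [map_inv₀]
          exact inv_lt_one_of_one_lt₀
            (lt_of_not_ge fun h' => hcA ((A.valuation_le_one_iff c).1 h'))
        refine ⟨1 - algebraMap K F c⁻¹ * x, 1,
          sub_mem (one_mem _) (mul_mem (MultiRed.const_mem_regSub x _) (self_mem_regSub x)),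
          fun j => ?_, fun q _ => by simpa using hasValue_algebraMap q.2 (1 : k), fun _ => ?_⟩
        · have h1 := (ConstRed.red_one (C := J.C j)).sub
            ((J.red_const_at j ⟨c⁻¹, hci⟩).mul (H.chart.red_x j))
          rwa [hπ, map_zero, zero_mul, sub_zero] at h1
        · have h1 := (hc.smul c⁻¹).neg
          rwa [inv_mul_cancel₀ hc0, map_one, neg_sub] at h1
      · exact ⟨1, 1, one_mem _, J.red_one,
          fun q _ => by simpa using hasValue_algebraMap q.2 (1 : k), fun h' => absurd h' hnn⟩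
  set poles := (finite_support hF f).toFinset.filter fun P => P.ord f < 0
  have hne : ∀ P ∈ poles, H.splMap P ≠ none := fun P hP h0 => by
    have hlt := (Finset.mem_filter.1 hP).2
    rcases hf P h0 with h' | h'
    · rw [h', Place.ord_zero] at hlt; omega
    · omega
  choose! h hb hreg hred hone hzero using fun P (hP : P ∈ poles) => hex P (hne P hP)
  set p := ∏ P ∈ poles, h P ^ (-P.ord f).toNat
  set pb := ∏ P ∈ poles, hb P ^ (-P.ord f).toNat
  have hp : J.Red p pb := MultiRed.red_prod fun P hP => (hred P hP).pow _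
  have hpreg : p ∈ regSub (K := K) x := prod_mem fun P hP => pow_mem (hreg P hP) _
  have hfp : f * p ∈ regSub (K := K) x := by
    intro P hP
    by_cases hmem : P ∈ poles
    · rw [show p = h P ^ (-P.ord f).toNat * ∏ P' ∈ poles.erase P, h P' ^ (-P'.ord f).toNat from
        (Finset.mul_prod_erase _ _ hmem).symm]
      have h1 : AtLeast P 0 (∏ P' ∈ poles.erase P, h P' ^ (-P'.ord f).toNat) :=
        (prod_mem (S := regSub (K := K) x) fun P' hP' =>
          pow_mem (hreg P' (Finset.mem_of_mem_erase hP')) _) P hP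
      refine ((atLeast_ord f).mul ((atLeast_pow (hzero P hmem hP) _).mul h1)).mono ?_
      have := (Finset.mem_filter.1 hmem).2
      omega
    · have h1 : AtLeast P 0 f := Or.inr (by
        by_contra hlt
        exact hmem (Finset.mem_filter.2
          ⟨(finite_support hF f).mem_toFinset.2 (show P.ord f ≠ 0 by omega), by omega⟩))
      simpa using h1.mul (hpreg P hP)
  have hgl : r * pb ∈ J.glued x := ⟨f * p, hfp, hfr.mul hp⟩
  have hpb1 : ∀ q, J.IsBranch x xb q → HasValue q.2 (pb q.1) 1 := by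
    intro q hq
    simp only [pb, Finset.prod_apply]
    suffices key : ∀ S ⊆ poles, HasValue q.2 (∏ P ∈ S, (hb P ^ (-P.ord f).toNat) q.1) 1 from
      key _ (Finset.Subset.refl _)
    intro S
    induction S using Finset.induction with
    | empty => exact fun _ => by simpa using hasValue_algebraMap q.2 (1 : k)
    | @insert P S hP ih =>
      intro hsub
      rw [Finset.insert_subset_iff] at hsub
      rw [Finset.prod_insert hP, Pi.pow_apply]
      have := ((hone P hsub.1 q hq).pow (-P.ord f).toNat).mul (ih hsub.2)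
      rwa [one_pow, one_mul] at this
  have hdiv : ∀ q, J.IsBranch x xb q → ∀ v, HasValue q.2 ((r * pb) q.1) v →
      HasValue q.2 (r q.1) v := by
    intro q hq v hv
    obtain ⟨hp0, hpo⟩ := (hpb1 q hq).ord_eq_zero one_ne_zero
    have h1 := ((hv.sub ((hpb1 q hq).smul v)).atLeast)
    rw [HasValue]
    have h2 := hv.sub ((hpb1 q hq).smul v)
    rw [mul_one, sub_self, hasValue_zero_iff, Pi.mul_apply, ← sub_mul] at h2
    have h3 := h2.mul (atLeast_ord (v := q.2) (pb q.1)⁻¹)
    rwa [mul_assoc, mul_inv_cancel₀ hp0, mul_one, q.2.ord_inv, hpo, neg_zero, add_zero] at h3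
  intro q hq
  obtain ⟨v, hv⟩ := H.exists_val hgl hq.1
  exact ⟨v, hdiv q hq v hv, fun q' hq' hs => hdiv q' hq' v (hs _ hgl v hv)⟩

end FibreHyp

end FA.ModField
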