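import Fermat.Agent.ModField.Semistable.Joint.Basic
import Fermat.Agent.CurveRed.Transfer

/-!
# Divisors in a residue disc of a chart

For a function scaled on every component, the degree of its divisor over a residue disc of `x`
is the sum of the degrees of the divisors of the reductions over the residue point.
-/

set_option autoImplicit false
set_option linter.style.haveILetI false
set_option linter.unusedSectionVars false

noncomputable section

namespace FA.ModField

open AlgebraicCurve FA.Curve FA.CurveRed FA.CurveRed.ConstRed Polynomial IntermediateField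

section Roots

variable {K F : Type*} [Field K] [IsAlgClosed K] [Field F] [Algebra K F]
  (hF : IsFunctionField K F) {x : F}

include hF

theorem hasValue_iff_pos (hx : Transcendental K x) {P : Place K F} {b : K} :
    HasValue P x b ↔ 0 < P.ord (x - algebraMap K F b) := by
  have hne : x - algebraMap K F b ≠ 0 := fun h0 =>
    hx (by rw [sub_eq_zero.1 h0]; exact isAlgebraic_algebraMap b)
  rw [HasValue, atLeast_iff hne]
  omega

open Classical in
/-- The degree of a divisor of a function over a finite value of `x`, from its norm. -/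
theorem degree_filter_value (hx : Transcendental K x) {r : F} (hr : r ≠ 0) {p q : K[X]}
    (hq : q ≠ 0) (hN : Algebra.norm K⟮x⟯ r * aeval (AdjoinSimple.gen K x) q =
      aeval (AdjoinSimple.gen K x) p) (b : K) :
    Divisor.degree ((divOf hF r).filter fun P => HasValue P x b) =
      (p.rootMultiplicity b : ℤ) - q.rootMultiplicity b := by
  haveI := hF.finiteDimensional hx
  haveI := hasPrincipalDivisors hF
  obtain ⟨P₀, hP₀⟩ := exists_ord_eq_one_zero hF b hx
  set t := x - algebraMap K F b
  have ht : t ∈ K⟮x⟯ := sub_mem (mem_adjoin_simple_self K x) (K⟮x⟯.algebraMap_mem b)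
  have htop : K⟮t⟯ = K⟮x⟯ := adjoin_sub_eq x b
  set v := P₀.restrict K⟮x⟯
  have hfib : ∀ w : Place K F, w ∈ v.fiber F ↔ HasValue w x b := fun w => by
    rw [hasValue_iff_pos hF hx]
    exact (restrict_of_pos hF hx ht htop (w := w) hP₀).2
  have hv1 : v.ord ⟨t, ht⟩ = 1 := (restrict_of_pos hF hx ht htop (w := P₀) hP₀).1
  have hsum : Divisor.degree ((divOf hF r).filter fun P => HasValue P x b) =
      ∑ w ∈ v.fiber F, w.ord r := by
    rw [degree_eq_finset_sum hF _ (S := v.fiber F) fun w hw => (hfib w).2 (by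
      rw [Finsupp.support_filter, Finset.mem_filter] at hw
      exact hw.2)]
    exact Finset.sum_congr rfl fun w hw => by
      rw [Finsupp.filter_apply, if_pos ((hfib w).1 hw), divOf_apply]
  rw [hsum, sum_fiber_ord (isFunctionField_simple hx) hF v hr]
  have hgen : ∀ s : K[X], s ≠ 0 → aeval (AdjoinSimple.gen K x) s ≠ 0 ∧
      v.ord (aeval (AdjoinSimple.gen K x) s) = (s.rootMultiplicity b : ℤ) := by
    intro s hs
    have hne : aeval (AdjoinSimple.gen K x) s ≠ 0 := fun h0 => hs (transcendental_iff.1 hx s (by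
      have := (aeval_algHom_apply K⟮x⟯.val (AdjoinSimple.gen K x) s)
      rw [h0, map_zero] at this
      simpa using this))
    refine ⟨hne, ?_⟩
    obtain ⟨s', hs', hnd⟩ := s.exists_eq_pow_rootMultiplicity_mul_and_not_dvd hs b
    have hval : HasValue v (AdjoinSimple.gen K x) b := by
      rw [HasValue]
      refine Or.inr ?_
      rw [show AdjoinSimple.gen K x - algebraMap K K⟮x⟯ b = ⟨t, ht⟩ from Subtype.ext rfl, hv1]
    have hne' : s'.eval b ≠ 0 := fun h0 => hnd (dvd_iff_isRoot.2 h0)
    obtain ⟨h0', hord'⟩ := (hval.aeval s').ord_eq_zero hne'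
    generalize s.rootMultiplicity b = n at hs' ⊢
    rw [hs', map_mul, map_pow, map_sub, aeval_X, aeval_C,
      show AdjoinSimple.gen K x - algebraMap K K⟮x⟯ b = ⟨t, ht⟩ from Subtype.ext rfl,
      v.ord_mul (pow_ne_zero _ fun h0 => by rw [h0] at hv1; simp at hv1) h0', place_ord_pow, hv1,
      hord', add_zero, mul_one]
  obtain ⟨hqne, hqord⟩ := hgen q hq
  have hN0 : Algebra.norm K⟮x⟯ r ≠ 0 := fun h0 => hr (Algebra.norm_eq_zero_iff.1 h0)
  have hp : p ≠ 0 := fun h0 => (mul_ne_zero hN0 hqne) (by rw [hN, h0, map_zero])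
  have := (hgen p hp).2
  rw [← hN, v.ord_mul hN0 hqne, hqord] at this
  omega

end Roots

section Disc

variable {K k : Type*} [Field K] [IsAlgClosed K] [Field k] {A : ValuationSubring K} {π : A →+* k}
  (hπ0 : ∀ a : A, π a = 0 ↔ A.valuation a < 1)

include hπ0

open Classical in
/-- The roots in a residue disc are counted by the multiplicity of the reduced root. -/
theorem card_roots_disc (a : k) :
    ∀ (n : ℕ) (P : A[X]), P.map π ≠ 0 → (P.map A.subtype).natDegree = n →
      ((P.map A.subtype).roots.filter fun b => ∃ h : b ∈ A, π ⟨b, h⟩ = a).card =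
        (P.map π).rootMultiplicity a := by
  intro n
  induction n with
  | zero =>
    intro P hP hn
    have hC := eq_C_of_natDegree_eq_zero hn
    rw [hC, roots_C, Multiset.filter_zero, Multiset.card_zero]
    have hdeg : P.natDegree = 0 := by
      rwa [natDegree_map_eq_of_injective Subtype.val_injective] at hn
    rw [eq_C_of_natDegree_eq_zero hdeg, Polynomial.map_C, rootMultiplicity_C]
  | succ n ih =>
    intro P hP hn
    have hne : P.map A.subtype ≠ 0 := fun h0 => by rw [h0] at hn; simp at hn
    obtain ⟨b, hb⟩ := IsAlgClosed.exists_root (P.map A.subtype)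
      (fun h0 => by rw [natDegree_eq_of_degree_eq_some (n := 0) h0] at hn; omega)
    obtain ⟨p', hp'⟩ := dvd_iff_isRoot.2 hb
    have hp'0 : p' ≠ 0 := fun h0 => hne (by rw [hp', h0, mul_zero])
    have hdeg' : p'.natDegree = n := by
      rw [hp', natDegree_mul (X_sub_C_ne_zero b) hp'0, natDegree_X_sub_C] at hn
      omega
    -- a linear factor with integral coefficients and nonzero reduction
    obtain ⟨ℓ, e, he, hℓ, hℓ0, hℓroot⟩ : ∃ (ℓ : A[X]) (e : K), e ≠ 0 ∧
        (X - Polynomial.C b) = Polynomial.C e * ℓ.map A.subtype ∧ ℓ.map π ≠ 0 ∧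
        (ℓ.map π).rootMultiplicity a = if (∃ h : b ∈ A, π ⟨b, h⟩ = a) then 1 else 0 := by
      by_cases hbA : b ∈ A
      · refine ⟨X - Polynomial.C ⟨b, hbA⟩, 1, one_ne_zero, ?_, ?_, ?_⟩
        · simp [Polynomial.map_sub]
        · rw [Polynomial.map_sub, map_X, Polynomial.map_C]; exact X_sub_C_ne_zero _
        · rw [Polynomial.map_sub, map_X, Polynomial.map_C, rootMultiplicity_X_sub_C]
          refine if_congr ?_ rfl rfl
          exact ⟨fun h0 => ⟨hbA, h0.symm⟩, fun ⟨_, h0⟩ => h0.symm⟩
      · have hbi : b⁻¹ ∈ A := (A.mem_or_inv_mem b).resolve_left hbA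
        have hb0 : b ≠ 0 := fun h0 => hbA (h0 ▸ zero_mem A)
        have hπ : π ⟨b⁻¹, hbi⟩ = 0 := by
          rw [hπ0]
          show A.valuation b⁻¹ < 1
          rw [map_inv₀]
          exact inv_lt_one_of_one_lt₀
            (lt_of_not_ge fun h' => hbA ((A.valuation_le_one_iff b).1 h'))
        refine ⟨Polynomial.C (⟨b⁻¹, hbi⟩ : A) * X - 1, b, hb0, ?_, ?_, ?_⟩
        · rw [Polynomial.map_sub, Polynomial.map_mul, Polynomial.map_C, map_X, Polynomial.map_one,
            mul_sub, ← mul_assoc, ← map_mul]
          show _ = Polynomial.C (b * b⁻¹) * X - _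
          rw [mul_inv_cancel₀ hb0, map_one, one_mul, mul_one]
        · rw [Polynomial.map_sub, Polynomial.map_mul, Polynomial.map_C, map_X, Polynomial.map_one,
            hπ, map_zero, zero_mul, zero_sub]
          exact neg_ne_zero.2 one_ne_zero
        · rw [Polynomial.map_sub, Polynomial.map_mul, Polynomial.map_C, map_X, Polynomial.map_one,
            hπ, map_zero, zero_mul, zero_sub, if_neg fun ⟨h', _⟩ => hbA h',
            show (-1 : k[X]) = Polynomial.C (-1) by simp, rootMultiplicity_C]
    obtain ⟨C', hC'⟩ : ∃ c : K, c ≠ 0 ∧ ∃ P' : A[X], P'.map π ≠ 0 ∧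
        Polynomial.C e * p' = Polynomial.C c * P'.map A.subtype := by
      have hne' : Polynomial.C e * p' ≠ 0 := mul_ne_zero (by simpa using he) hp'0
      obtain ⟨j, hj0, hj⟩ := exists_max_coeff A
        (fun i : Fin (n + 1) => (Polynomial.C e * p').coeff i)
        ⟨⟨n, Nat.lt_succ_self n⟩, by
          rw [coeff_C_mul]
          exact mul_ne_zero he (by rw [← hdeg']; simpa using hp'0)⟩
      set P' : A[X] := ∑ i : Fin (n + 1), monomial (i : ℕ) (⟨_, hj i⟩ : A)
      have hcoeff : ∀ m, P'.coeff m = if h : m < n + 1 then ⟨_, hj ⟨m, h⟩⟩ else 0 := by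
        intro m
        simp only [P', finsetSum_coeff, coeff_monomial]
        split_ifs with h
        · rw [Finset.sum_eq_single ⟨m, h⟩ (fun i _ hi => if_neg fun he' => hi (Fin.ext he'))
            (fun h' => absurd (Finset.mem_univ _) h'), if_pos rfl]
        · exact Finset.sum_eq_zero fun i _ => if_neg fun he' => h (by rw [← he']; exact i.2)
      refine ⟨_, hj0, P', fun h0 => ?_, Polynomial.ext fun m => ?_⟩
      · have h1 := congrArg (fun q : k[X] => q.coeff (j : ℕ)) h0
        simp only [coeff_map, hcoeff, dif_pos j.2, Polynomial.coeff_zero] at h1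
        rw [hπ0] at h1
        simp only at h1
        rw [div_self hj0, map_one] at h1
        exact lt_irrefl _ h1
      · rw [coeff_C_mul (p := P'.map A.subtype), coeff_map, hcoeff]
        split_ifs with hm
        · exact (mul_div_cancel₀ _ hj0).symm
        · rw [map_zero, mul_zero]
          exact coeff_eq_zero_of_natDegree_lt (by
            rw [natDegree_C_mul he, hdeg']; omega)
    obtain ⟨hc0, P', hP', hPe⟩ := hC'
    -- the scalar is integral
    have heq : P.map A.subtype = Polynomial.C C' * (ℓ * P').map A.subtype := by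
      rw [hp', hℓ, Polynomial.map_mul, mul_comm (Polynomial.C e), mul_assoc, hPe]
      ring
    have hlP : (ℓ * P').map π ≠ 0 := by rw [Polynomial.map_mul]; exact mul_ne_zero hℓ0 hP'
    have hcA : C' ∈ A := by
      obtain ⟨i, hi⟩ : ∃ i, ((ℓ * P').map π).coeff i ≠ 0 :=
        ⟨_, Polynomial.leadingCoeff_ne_zero.2 hlP⟩
      have h1 := congrArg (fun p : K[X] => p.coeff i) heq
      simp only [coeff_map, coeff_C_mul] at h1
      rw [coeff_map] at hi
      rw [Ne, hπ0, not_lt] at hi
      have hu : A.valuation (((ℓ * P').coeff i : A) : K) = 1 :=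
        le_antisymm (A.valuation_le_one _) hi
      rw [← A.valuation_le_one_iff]
      have h2 := congrArg A.valuation h1
      rw [map_mul] at h2
      rw [show A.valuation ((A.subtype) ((ℓ * P').coeff i)) = 1 from hu, mul_one] at h2
      rw [← h2]
      exact A.valuation_le_one _
    have hPA : P = Polynomial.C (⟨C', hcA⟩ : A) * (ℓ * P') :=
      Polynomial.map_injective _ Subtype.val_injective (by
        rw [heq, Polynomial.map_mul A.subtype (p := Polynomial.C _), Polynomial.map_C]; rfl)
    have hc' : π ⟨C', hcA⟩ ≠ 0 := fun h0 => hP (by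
      rw [hPA, Polynomial.map_mul, Polynomial.map_C, h0, map_zero, zero_mul])
    have hroots : (P.map A.subtype).roots = b ::ₘ (P'.map A.subtype).roots := by
      have h1 : (Polynomial.C e * p').roots = (P'.map A.subtype).roots := by
        rw [hPe, roots_C_mul _ hc0]
      rw [roots_C_mul _ he] at h1
      rw [hp', roots_mul (by rw [← hp']; exact hne), roots_X_sub_C, Multiset.singleton_add, h1]
    have hdegP' : (P'.map A.subtype).natDegree = n := by
      have h1 := congrArg natDegree hPe
      rw [natDegree_C_mul he, natDegree_C_mul hc0, hdeg'] at h1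
      exact h1.symm
    rw [hroots, Multiset.filter_cons, Multiset.card_add, ih P' hP' hdegP', hPA,
      Polynomial.map_mul, Polynomial.map_C, Polynomial.map_mul,
      rootMultiplicity_mul (mul_ne_zero (by simpa using hc') (mul_ne_zero hℓ0 hP')),
      rootMultiplicity_C, zero_add, rootMultiplicity_mul (mul_ne_zero hℓ0 hP'), hℓroot]
    congr 1
    split_ifs <;> simp

end Disc

namespace MultiRed

variable {K F k : Type*} [Field K] [IsAlgClosed K] [Field F] [Algebra K F] [Field k]
  [IsAlgClosed k] {ι : Type*} [Fintype ι] [Nonempty ι] [DecidableEq ι] {Fk : ι → Type*}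
  [∀ i, Field (Fk i)] [∀ i, Algebra k (Fk i)] {A : ValuationSubring K}
  {J : MultiRed K F k Fk A} {x : F} {xb : ∀ i, Fk i}

/-- `P` lies in the residue disc over `a`. -/
def InDisc (J : MultiRed K F k Fk A) (x : F) (P : Place K F) (a : k) : Prop :=
  ∃ (b : K) (h : b ∈ A), J.π ⟨b, h⟩ = a ∧ HasValue P x b

variable (hF : IsFunctionField K F) (hk : ∀ i, IsFunctionField k (Fk i))

open Classical in
/-- The zone theorem. -/
theorem MChart.zone (h : J.MChart x xb) {f : F} {c : ι → K} {g : ι → F} {r : ∀ i, Fk i}
    (hfg : ∀ i, f = algebraMap K F (c i) * g i) (hr : ∀ i, (J.C i).Red (g i) (r i))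
    (hf : f ≠ 0) (hr0 : ∀ i, r i ≠ 0) (a : k) :
    Divisor.degree ((divOf hF f).filter fun P => J.InDisc x P a) =
      ∑ i, Divisor.degree ((divOf (hk i) (r i)).filter fun Q => HasValue Q (xb i) a) := by
  have hc : ∀ i, c i ≠ 0 := fun i h0 => hf (by rw [hfg i, h0, map_zero, zero_mul])
  haveI := hF.finiteDimensional h.transX
  obtain ⟨c₀, z, D, hc₀, hNf, hz, hD⟩ := h.exists_norm (hk := hk) hF hc hfg hr
  obtain ⟨P, Q, hQ0, hz1, hz2⟩ := h.base_red.1 hz
  have hQ : Q.map J.π ≠ 0 := fun h0 => hQ0 (by simp [MChart.baseDown, h0])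
  have hQK : Q.map A.subtype ≠ 0 := fun h0 => hQ (by
    rw [(Polynomial.map_eq_zero_iff Subtype.val_injective).1 h0, Polynomial.map_zero])
  -- upstairs
  have hN : Algebra.norm K⟮x⟯ f * aeval (AdjoinSimple.gen K x) (Q.map A.subtype) =
      aeval (AdjoinSimple.gen K x) (Polynomial.C c₀ * P.map A.subtype) := by
    rw [hNf, mul_assoc, map_mul, aeval_C]
    exact congrArg (algebraMap K K⟮x⟯ c₀ * ·) hz1
  have hPK : P.map A.subtype ≠ 0 := fun h0 => by
    rw [h0, mul_zero, map_zero] at hN
    rcases mul_eq_zero.1 hN with h1 | h1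
    · exact hf (Algebra.norm_eq_zero_iff.1 h1)
    · exact hQK (transcendental_iff.1 h.transX _ (by rw [← coe_aeval_gen, h1]; rfl))
  -- downstairs
  have hDi : ∀ i, Algebra.norm k⟮xb i⟯ (r i) *
      aeval (AdjoinSimple.gen k (xb i)) (D i).denom =
      aeval (AdjoinSimple.gen k (xb i)) (D i).num := by
    intro i
    rw [← hD i, MChart.φ, RatFunc.liftRingHom_apply]
    exact div_mul_cancel₀ _ fun h0 => RatFunc.denom_ne_zero (D i)
      (MChart.aeval_gen_injective (h.trans i) (h0.trans (map_zero _).symm))
  have hr' : ∀ i, Algebra.norm k⟮xb i⟯ (r i) ≠ 0 := fun i => by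
    haveI := (hk i).finiteDimensional (h.trans i)
    exact fun h0 => hr0 i (Algebra.norm_eq_zero_iff.1 h0)
  have hnum : ∀ i, (D i).num ≠ 0 := fun i h0 => hr' i (by
    have h1 := hDi i
    rw [h0, map_zero] at h1
    exact (mul_eq_zero.1 h1).resolve_right fun h2 => RatFunc.denom_ne_zero (D i)
      (MChart.aeval_gen_injective (h.trans i) (h2.trans (map_zero _).symm)))
  have hpoly : P.map J.π * ∏ i, (D i).denom = Q.map J.π * ∏ i, (D i).num := by
    apply RatFunc.algebraMap_injective k
    have h1 : ∏ i, D i = (∏ i, algebraMap k[X] (RatFunc k) (D i).num) /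
        ∏ i, algebraMap k[X] (RatFunc k) (D i).denom := by
      rw [← Finset.prod_div_distrib]
      exact Finset.prod_congr rfl fun i _ => (RatFunc.num_div_denom _).symm
    rw [map_mul, map_mul, map_prod, map_prod]
    have h2 : (∏ i, D i) * algebraMap k[X] (RatFunc k) (Q.map J.π) =
        algebraMap k[X] (RatFunc k) (P.map J.π) := hz2
    rw [h1, div_mul_eq_mul_div, div_eq_iff (Finset.prod_ne_zero_iff.2 fun i _ h0 =>
      RatFunc.denom_ne_zero (D i) (RatFunc.algebraMap_injective k (h0.trans (map_zero _).symm)))]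
      at h2
    rw [← h2, mul_comm]
  have hP : P.map J.π ≠ 0 := fun h0 => by
    rw [h0, zero_mul] at hpoly
    exact mul_ne_zero hQ (Finset.prod_ne_zero_iff.2 fun i _ => hnum i) hpoly.symm
  have hprod : ∀ p : ι → k[X], (∀ i, p i ≠ 0) →
      (∏ i, p i).rootMultiplicity a = ∑ i, (p i).rootMultiplicity a := fun p hp => by
    suffices key : ∀ s : Finset ι,
        (∏ i ∈ s, p i).rootMultiplicity a = ∑ i ∈ s, (p i).rootMultiplicity a from key _
    intro s
    induction s using Finset.induction with
    | empty => rw [Finset.prod_empty, Finset.sum_empty, ← map_one Polynomial.C, rootMultiplicity_C]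
    | @insert i s hi ih =>
      rw [Finset.prod_insert hi, Finset.sum_insert hi, rootMultiplicity_mul
        (mul_ne_zero (hp i) (Finset.prod_ne_zero_iff.2 fun l _ => hp l)), ih]
  have hmult := congrArg (fun p : k[X] => p.rootMultiplicity a) hpoly
  rw [rootMultiplicity_mul (mul_ne_zero hP (Finset.prod_ne_zero_iff.2 fun i _ =>
      RatFunc.denom_ne_zero (D i))),
    rootMultiplicity_mul (mul_ne_zero hQ (Finset.prod_ne_zero_iff.2 fun i _ => hnum i)),
    hprod _ fun i => RatFunc.denom_ne_zero (D i), hprod _ hnum] at hmult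
  rw [Finset.sum_congr rfl fun i _ => degree_filter_value (hk i) (h.trans i) (hr0 i)
    (RatFunc.denom_ne_zero (D i)) (hDi i) a, Finset.sum_sub_distrib, ← Nat.cast_sum, ← Nat.cast_sum]
  -- the values of `x` in the disc
  set inA : K → Prop := fun b => ∃ h : b ∈ A, J.π ⟨b, h⟩ = a
  obtain ⟨Bs, hBs, hBmem⟩ : ∃ Bs : Finset K, (∀ b, ((P.map A.subtype).IsRoot b ∨
      (Q.map A.subtype).IsRoot b) → inA b → b ∈ Bs) ∧ ∀ b ∈ Bs, inA b := by
    refine ⟨((P.map A.subtype).roots.toFinset ∪ (Q.map A.subtype).roots.toFinset).filter inA,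
      fun b hb hin => Finset.mem_filter.2 ⟨?_, hin⟩, fun b hb => (Finset.mem_filter.1 hb).2⟩
    rw [Finset.mem_union, Multiset.mem_toFinset, Multiset.mem_toFinset, mem_roots hPK,
      mem_roots hQK]
    exact hb
  obtain ⟨val, hval⟩ : ∃ val : Place K F → K, ∀ P b, HasValue P x b → val P = b :=
    ⟨fun P => if hP : ∃ b, HasValue P x b then hP.choose else 0, fun P b hb => by
      simp only [dif_pos (⟨b, hb⟩ : ∃ b, HasValue P x b)]
      exact (Exists.choose_spec (⟨b, hb⟩ : ∃ b, HasValue P x b)).unique hb⟩
  set T := Bs ∪ ((divOf hF f).support.filter fun P => J.InDisc x P a).image val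
  have hTA : ∀ b ∈ T, inA b := fun b hb => by
    rcases Finset.mem_union.1 hb with hb | hb
    · exact hBmem b hb
    · obtain ⟨P', hP', rfl⟩ := Finset.mem_image.1 hb
      obtain ⟨b', hA, hπ, hv⟩ := (Finset.mem_filter.1 hP').2
      rw [hval P' b' hv]
      exact ⟨hA, hπ⟩
  have hsplit : (divOf hF f).filter (fun P => J.InDisc x P a) =
      ∑ b ∈ T, (divOf hF f).filter fun P => HasValue P x b := by
    ext P'
    rw [Finsupp.filter_apply, Finset.sum_apply']
    by_cases hmem : J.InDisc x P' a
    · rw [if_pos hmem]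
      obtain ⟨b, hA, hπ, hv⟩ := hmem
      by_cases hb : b ∈ T
      · rw [Finset.sum_eq_single b (fun b' _ hb' => by
          rw [Finsupp.filter_apply, if_neg fun h' => hb' (h'.unique hv)])
          (fun h' => absurd hb h'), Finsupp.filter_apply, if_pos hv]
      · have h0 : divOf hF f P' = 0 := by
          by_contra hne
          exact hb (Finset.mem_union_right _ (Finset.mem_image.2 ⟨P', Finset.mem_filter.2
            ⟨Finsupp.mem_support_iff.2 hne, b, hA, hπ, hv⟩, hval P' b hv⟩))
        rw [h0]
        exact (Finset.sum_eq_zero fun b' _ => by rw [Finsupp.filter_apply, h0, ite_self]).symm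
    · rw [if_neg hmem]
      exact (Finset.sum_eq_zero fun b' hb' => by
        rw [Finsupp.filter_apply, if_neg fun hv =>
          hmem ⟨b', (hTA b' hb').1, (hTA b' hb').2, hv⟩]).symm
  have hcount : ∀ R : A[X], R.map J.π ≠ 0 → (∀ b, (R.map A.subtype).IsRoot b → inA b → b ∈ T) →
      ∑ b ∈ T, (R.map A.subtype).rootMultiplicity b = (R.map J.π).rootMultiplicity a := by
    intro R hR hroot
    rw [← card_roots_disc J.π_eq_zero a _ R hR rfl,
      ← Multiset.sum_count_eq_card (s := T) fun b hb => by
        obtain ⟨hb1, hb2⟩ := Multiset.mem_filter.1 hb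
        exact hroot b (isRoot_of_mem_roots hb1) hb2]
    exact Finset.sum_congr rfl fun b hb => by
      rw [Multiset.count_filter_of_pos (p := inA) (hTA b hb), count_roots]
  rw [hsplit, map_sum, Finset.sum_congr rfl fun b _ =>
      degree_filter_value hF h.transX hf hQK hN b,
    Finset.sum_sub_distrib, ← Nat.cast_sum, ← Nat.cast_sum]
  have e1 : ∑ b ∈ T, (Polynomial.C c₀ * P.map A.subtype).rootMultiplicity b =
      (P.map J.π).rootMultiplicity a := by
    rw [← hcount P hP fun b hb hin => Finset.mem_union_left _ (hBs b (Or.inl hb) hin)]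
    exact Finset.sum_congr rfl fun b _ => by
      rw [rootMultiplicity_mul (mul_ne_zero (by simpa using hc₀) hPK), rootMultiplicity_C, zero_add]
  rw [e1, hcount Q hQ fun b hb hin => Finset.mem_union_left _ (hBs b (Or.inr hb) hin)]
  omega

end MultiRed

end FA.ModField
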